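import Mathlib

/-!
# S14 / first inequality block, part 1: abstract index bookkeeping

* `fi_relIndex_le_card`, `fi_relIndex_le_relIndex`: counting lemmas bounding a relative index by
  exhibiting a map which separates cosets.
* `fi_index_eq_mul`: `[M : A] = [ker f : ker f ∩ A] * [f M : f A]`.
* `fi_herbrand_subgroup`, `fi_herbrand_transport`: invariance of the Herbrand quotient
  `[ker f : im g] / [ker g : im f]` under passing to a stable subgroup of finite index.
-/

namespace Fermat.Agent.S14

section Counting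

variable {G : Type*} [Group G]

/-- If a map `φ` from a subgroup `K` to a finite type separates the cosets of `H`, then
`[K : H ∩ K] ≤ card S`. -/
theorem fi_relIndex_le_card (H K : Subgroup G) {S : Type*} [Finite S] (φ : K → S)
    (hφ : ∀ a b : K, φ a = φ b → (a : G)⁻¹ * (b : G) ∈ H) :
    H.relIndex K ≠ 0 ∧ H.relIndex K ≤ Nat.card S := by
  have hinj : Function.Injective
      (fun x : K ⧸ H.subgroupOf K => φ (Quotient.out x)) := by
    intro x y hxy
    have h1 := hφ _ _ hxy
    have h2 : (Quotient.out x)⁻¹ * (Quotient.out y) ∈ H.subgroupOf K := by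
      rw [Subgroup.mem_subgroupOf]
      simpa using h1
    have h3 : (QuotientGroup.mk (Quotient.out x) : K ⧸ H.subgroupOf K)
        = QuotientGroup.mk (Quotient.out y) := QuotientGroup.eq.mpr h2
    simpa using h3
  have : Finite (K ⧸ H.subgroupOf K) := Finite.of_injective _ hinj
  refine ⟨?_, ?_⟩
  · rw [Subgroup.relIndex, Subgroup.index_eq_card]
    exact Nat.card_pos.ne'
  · rw [Subgroup.relIndex, Subgroup.index_eq_card]
    exact Nat.card_le_card_of_injective _ hinj

/-- Two-sided version: a map separating cosets bounds one relative index by another. -/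
theorem fi_relIndex_le_relIndex {G' : Type*} [Group G'] (H K : Subgroup G) (H' K' : Subgroup G')
    (h' : H'.relIndex K' ≠ 0) (φ : K → K')
    (hφ : ∀ a b : K, (φ a : G')⁻¹ * (φ b : G') ∈ H' → (a : G)⁻¹ * (b : G) ∈ H) :
    H.relIndex K ≠ 0 ∧ H.relIndex K ≤ H'.relIndex K' := by
  have : Finite (K' ⧸ H'.subgroupOf K') := by
    apply Nat.finite_of_card_ne_zero
    rw [← Subgroup.index_eq_card]
    exact h'
  have := fi_relIndex_le_card H K (S := K' ⧸ H'.subgroupOf K')
    (fun a => QuotientGroup.mk (φ a)) (by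
      intro a b hab
      apply hφ
      have := QuotientGroup.eq.mp hab
      rw [Subgroup.mem_subgroupOf] at this
      simpa using this)
  rw [← Subgroup.index_eq_card] at this
  exact this

end Counting

/-- `[M : ker f · ker g] * [ker f : im g] = [ker f : g (ker f)]`. -/
@[to_additive fi_add_index_sup_ker_mul]
theorem fi_index_sup_ker_mul {M : Type*} [CommGroup M] (f g : M →* M) (hfg : ∀ x, f (g x) = 1) :
    (f.ker ⊔ g.ker).index * g.range.relIndex f.ker = (f.ker.map g).relIndex f.ker := by
  have h1 : ((f.ker ⊔ g.ker).map g).relIndex g.range = (f.ker ⊔ g.ker).index := by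
    rw [MonoidHom.range_eq_map, Subgroup.relIndex_map_map, top_sup_eq,
      Subgroup.relIndex_top_right, sup_assoc, sup_idem]
  have h2 : (f.ker ⊔ g.ker).map g = f.ker.map g := by
    rw [Subgroup.map_sup, (Subgroup.map_eq_bot_iff _).mpr le_rfl, sup_bot_eq]
  rw [h2] at h1
  rw [← h1]
  refine Subgroup.relIndex_mul_relIndex _ _ _ ?_ ?_
  · rw [MonoidHom.range_eq_map]
    exact Subgroup.map_mono le_top
  · rintro _ ⟨x, rfl⟩
    exact hfg x

section Index

variable {M : Type*} [CommGroup M]

/-- `[M : A] = [ker f : ker f ∩ A] * [f M : f A]`. -/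
@[to_additive fi_add_index_eq_mul]
theorem fi_index_eq_mul {M' : Type*} [CommGroup M'] (f : M →* M') (A : Subgroup M) :
    A.index = (A ⊓ f.ker).relIndex f.ker * (A.map f).relIndex f.range := by
  have h1 : (A.map f).relIndex f.range = (A ⊔ f.ker).index := by
    rw [MonoidHom.range_eq_map, Subgroup.relIndex_map_map, top_sup_eq,
      Subgroup.relIndex_top_right]
  have h2 : A.relIndex (A ⊔ f.ker) = (A ⊓ f.ker).relIndex f.ker := by
    rw [Subgroup.relIndex_sup_left, Subgroup.inf_relIndex_right]
  rw [h1, ← h2, Subgroup.relIndex_mul_index le_sup_left]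

/-- One half of the Herbrand bookkeeping. -/
@[to_additive fi_add_herbrand_half]
theorem fi_herbrand_half (f g : M →* M) (hfg : ∀ x, f (g x) = 1)
    (A : Subgroup M) (hAg : A.map g ≤ A) :
    (A.map g).relIndex g.range * g.range.relIndex f.ker
      = (A.map g).relIndex (f.ker ⊓ A) * (A ⊓ f.ker).relIndex f.ker := by
  have hrange : g.range ≤ f.ker := by
    rintro _ ⟨x, rfl⟩
    exact hfg x
  have hmap : A.map g ≤ g.range := by
    rw [MonoidHom.range_eq_map]
    exact Subgroup.map_mono le_top
  rw [Subgroup.relIndex_mul_relIndex _ _ _ hmap hrange, inf_comm A f.ker,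
    Subgroup.relIndex_mul_relIndex _ _ _ (le_inf (hmap.trans hrange) hAg) inf_le_left]

/-- Invariance of the Herbrand quotient under passing to a stable subgroup of finite index
(cross-multiplied form), together with transfer of finiteness. -/
@[to_additive fi_add_herbrand_subgroup]
theorem fi_herbrand_subgroup (f g : M →* M) (hfg : ∀ x, f (g x) = 1) (hgf : ∀ x, g (f x) = 1)
    (A : Subgroup M) (hA : A.index ≠ 0) (hAf : A.map f ≤ A) (hAg : A.map g ≤ A) :
    g.range.relIndex f.ker * (A.map f).relIndex (g.ker ⊓ A)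
        = (A.map g).relIndex (f.ker ⊓ A) * f.range.relIndex g.ker
      ∧ ((A.map g).relIndex (f.ker ⊓ A) ≠ 0 → g.range.relIndex f.ker ≠ 0)
      ∧ ((A.map f).relIndex (g.ker ⊓ A) ≠ 0 → f.range.relIndex g.ker ≠ 0) := by
  have hf := fi_index_eq_mul f A
  have hg := fi_index_eq_mul g A
  have If := fi_herbrand_half f g hfg A hAg
  have Ig := fi_herbrand_half g f hgf A hAf
  set af := (A ⊓ f.ker).relIndex f.ker
  set bf := (A.map f).relIndex f.range
  set ag := (A ⊓ g.ker).relIndex g.ker
  set bg := (A.map g).relIndex g.range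
  set Xf := g.range.relIndex f.ker
  set Xg := f.range.relIndex g.ker
  set Yf := (A.map g).relIndex (f.ker ⊓ A)
  set Yg := (A.map f).relIndex (g.ker ⊓ A)
  have haf : af ≠ 0 := fun h => hA (by rw [hf, h, zero_mul])
  have hag : ag ≠ 0 := fun h => hA (by rw [hg, h, zero_mul])
  refine ⟨?_, ?_, ?_⟩
  · have key : Xf * Yg * A.index = Yf * Xg * A.index := by
      calc Xf * Yg * A.index = (bg * Xf) * (Yg * ag) := by rw [hg]; ring
        _ = (Yf * af) * (bf * Xg) := by rw [If, Ig]
        _ = Yf * Xg * A.index := by rw [hf]; ring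
    exact Nat.eq_of_mul_eq_mul_right (Nat.pos_of_ne_zero hA) key
  · intro hY hX
    have : Yf * af = 0 := by rw [← If, hX, mul_zero]
    exact (mul_ne_zero hY haf) this
  · intro hY hX
    have : Yg * ag = 0 := by rw [← Ig, hX, mul_zero]
    exact (mul_ne_zero hY hag) this

/-- Transport form: `A'` maps injectively and equivariantly onto a finite index subgroup. -/
@[to_additive fi_add_herbrand_transport]
theorem fi_herbrand_transport {A' : Type*} [CommGroup A'] (ι : A' →* M)
    (hι : Function.Injective ι) (hidx : ι.range.index ≠ 0) (f g : M →* M) (f' g' : A' →* A')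
    (hf : ∀ a, ι (f' a) = f (ι a)) (hg : ∀ a, ι (g' a) = g (ι a))
    (hfg : ∀ x, f (g x) = 1) (hgf : ∀ x, g (f x) = 1) :
    g.range.relIndex f.ker * f'.range.relIndex g'.ker
        = g'.range.relIndex f'.ker * f.range.relIndex g.ker
      ∧ (g'.range.relIndex f'.ker ≠ 0 → g.range.relIndex f.ker ≠ 0)
      ∧ (f'.range.relIndex g'.ker ≠ 0 → f.range.relIndex g.ker ≠ 0) := by
  have hrange : ∀ (u u' : M →* M) (v v' : A' →* A'), (∀ a, ι (v a) = u (ι a)) →
      (∀ a, ι (v' a) = u' (ι a)) →
      v'.range.relIndex v.ker = (ι.range.map u').relIndex (u.ker ⊓ ι.range) := by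
    intro u u' v v' hv hv'
    rw [← Subgroup.relIndex_map_map_of_injective _ _ hι]
    congr 1
    · ext x
      simp only [Subgroup.mem_map, MonoidHom.mem_range]
      constructor
      · rintro ⟨_, ⟨a, rfl⟩, rfl⟩
        exact ⟨ι a, ⟨a, rfl⟩, (hv' a).symm⟩
      · rintro ⟨_, ⟨a, rfl⟩, rfl⟩
        exact ⟨v' a, ⟨a, rfl⟩, hv' a⟩
    · ext x
      simp only [Subgroup.mem_map, MonoidHom.mem_ker, Subgroup.mem_inf, MonoidHom.mem_range]
      constructor
      · rintro ⟨a, ha, rfl⟩
        refine ⟨?_, a, rfl⟩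
        rw [← hv, ha, map_one]
      · rintro ⟨hx, a, rfl⟩
        refine ⟨a, ?_, rfl⟩
        apply hι
        rw [hv, hx, map_one]
  have hAf : ι.range.map f ≤ ι.range := by
    rintro _ ⟨_, ⟨a, rfl⟩, rfl⟩
    exact ⟨f' a, hf a⟩
  have hAg : ι.range.map g ≤ ι.range := by
    rintro _ ⟨_, ⟨a, rfl⟩, rfl⟩
    exact ⟨g' a, hg a⟩
  rw [hrange f g f' g' hf hg, hrange g f g' f' hg hf]
  exact fi_herbrand_subgroup f g hfg hgf ι.range hidx hAf hAg

end Index

end Fermat.Agent.S14
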