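import Mathlib
import Fermat.Agent.S14.FirstIneq.Herbrand

/-!
# S14 / first inequality block, part 2: Herbrand quotient inequality for lattices

For a finitely generated free `ℤ`-module `B` with an endomorphism `τ` of prime order `p`,
`θ = 1 - τ`, `ν = 1 + τ + ... + τ^(p-1)`: if `rank ker θ ≤ a` and `rank B ≥ p a + p - 1` then
`p * [ker θ : im ν] ≤ [ker ν : im θ]` (`fi_lattice_herbrand`).
-/

namespace Fermat.Agent.S14

open Polynomial Module

set_option linter.unusedSectionVars false

section Poly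

/-- `(1 - X)^(p-1) ≡ 1 + X + ... + X^(p-1)` modulo `p`. -/
theorem fi_poly_identity (p : ℕ) [hp : Fact p.Prime] :
    ∃ U : ℤ[X], (1 - X) ^ (p - 1) = (∑ i ∈ Finset.range p, X ^ i) + C (p : ℤ) * U := by
  have hmod : ((1 - X : (ZMod p)[X]) ^ (p - 1) - ∑ i ∈ Finset.range p, X ^ i) = 0 := by
    have hne : (1 - X : (ZMod p)[X]) ≠ 0 := by
      intro h
      have := congrArg (Polynomial.eval 0) h
      simp at this
    have hmul : (1 - X : (ZMod p)[X]) *
        ((1 - X : (ZMod p)[X]) ^ (p - 1) - ∑ i ∈ Finset.range p, X ^ i) = 0 := by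
      rw [mul_sub, mul_neg_geom_sum, ← pow_succ', Nat.sub_add_cancel hp.out.one_le,
        sub_pow_char, one_pow, sub_self]
    exact (mul_eq_zero.mp hmul).resolve_left hne
  have h : ((1 - X) ^ (p - 1) - ∑ i ∈ Finset.range p, X ^ i : ℤ[X]).map
      (Int.castRingHom (ZMod p)) = 0 := by
    rw [← hmod]
    simp [Polynomial.map_sub, Polynomial.map_pow, Polynomial.map_sum]
  have hdvd : C (p : ℤ) ∣ ((1 - X) ^ (p - 1) - ∑ i ∈ Finset.range p, X ^ i : ℤ[X]) := by
    rw [Polynomial.C_dvd_iff_dvd_coeff]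
    intro i
    have := congrArg (fun q => q.coeff i) h
    simp only [coeff_map, coeff_zero, eq_intCast] at this
    exact (ZMod.intCast_zmod_eq_zero_iff_dvd _ _).mp this
  obtain ⟨U, hU⟩ := hdvd
  exact ⟨U, by rw [← hU]; ring⟩

/-- `1 + X + ... + X^(p-1) ≡ p` modulo `1 - X`. -/
theorem fi_poly_identity' (p : ℕ) :
    ∃ H : ℤ[X], (∑ i ∈ Finset.range p, X ^ i) = C (p : ℤ) + (1 - X) * H := by
  have hroot : (X - C (1 : ℤ)) ∣ ((∑ i ∈ Finset.range p, X ^ i) - C (p : ℤ)) := by
    rw [Polynomial.dvd_iff_isRoot]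
    simp [Polynomial.eval_finsetSum]
  obtain ⟨H, hH⟩ := hroot
  refine ⟨-H, ?_⟩
  have : (∑ i ∈ Finset.range p, X ^ i : ℤ[X]) = C (p : ℤ) + (X - C 1) * H := by
    rw [← hH]; ring
  rw [this]
  simp only [map_one]
  ring

end Poly

section Det

variable {B : Type*} [AddCommGroup B] [Module.Free ℤ B] [Module.Finite ℤ B]

/-- The index of the image of an injective endomorphism of a lattice is `|det|`. -/
theorem fi_index_range_eq_natAbs_det (φ : B →ₗ[ℤ] B) (hφ : Function.Injective φ) :
    (LinearMap.range φ).toAddSubgroup.index = (LinearMap.det φ).natAbs := by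
  have := Submodule.natAbs_det_equiv (LinearMap.range φ) (LinearEquiv.ofInjective φ hφ)
  rw [AddSubgroup.index_eq_card]
  refine Eq.trans ?_ (Eq.trans this.symm ?_)
  · rfl
  · congr 2

/-- Core determinant computation: if `1 + τ + ... + τ^(p-1) = 0` on a lattice of rank `b`, then
`1 - τ` is injective with `|det (1 - τ)| = p ^ c` where `b ≤ c * (p - 1)`. -/
theorem fi_det_one_sub (p : ℕ) [hp : Fact p.Prime] (τ : Module.End ℤ B)
    (hν : ∑ i ∈ Finset.range p, τ ^ i = 0) :
    Function.Injective (1 - τ : Module.End ℤ B) ∧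
      ∃ c : ℕ, (LinearMap.det (1 - τ)).natAbs = p ^ c ∧ finrank ℤ B ≤ c * (p - 1) := by
  obtain ⟨U, hU⟩ := fi_poly_identity p
  obtain ⟨H, hH⟩ := fi_poly_identity' p
  have hU' := congrArg (Polynomial.aeval τ) hU
  have hH' := congrArg (Polynomial.aeval τ) hH
  simp only [map_pow, map_sub, map_one, aeval_X, map_add, map_sum, map_mul, hν, zero_add,
    map_natCast] at hU' hH'
  -- hU' : (1 - τ)^(p-1) = p * U(τ);  hH' : 0 = p + (1 - τ) * H(τ)
  have hH'' : (1 - τ) * (- Polynomial.aeval τ H) = (p : Module.End ℤ B) := by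
    rw [mul_neg, eq_comm, eq_neg_iff_add_eq_zero]; exact hH'.symm
  have hcomm : (- Polynomial.aeval τ H) * (1 - τ) = (p : Module.End ℤ B) := by
    rw [← hH'']
    have : Commute (Polynomial.aeval τ H) τ := by
      have := (Polynomial.aeval τ).map_mul H X
      have h2 := (Polynomial.aeval τ).map_mul X H
      rw [mul_comm X H, this] at h2
      simpa [Commute, SemiconjBy] using h2
    exact (Commute.sub_right (Commute.one_right _) (Commute.neg_left this)).eq
  have hdetp : LinearMap.det ((p : Module.End ℤ B)) = (p : ℤ) ^ finrank ℤ B := by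
    have : (p : Module.End ℤ B) = (p : ℤ) • (1 : Module.End ℤ B) := by
      ext x; simp
    rw [this, LinearMap.det_smul, map_one, mul_one]
  have hinj : Function.Injective (1 - τ : Module.End ℤ B) := by
    rw [← LinearMap.ker_eq_bot, LinearMap.ker_eq_bot']
    intro x hx
    have h1 := LinearMap.congr_fun hcomm x
    rw [Module.End.mul_apply, hx, map_zero] at h1
    have h2 : (p : ℤ) • x = 0 := by
      rw [h1]; simp
    rcases smul_eq_zero.mp h2 with h3 | h3
    · exact absurd h3 (by exact_mod_cast hp.out.ne_zero)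
    · exact h3
  refine ⟨hinj, ?_⟩
  have hd1 : LinearMap.det (1 - τ) * LinearMap.det (- Polynomial.aeval τ H)
      = (p : ℤ) ^ finrank ℤ B := by
    rw [← map_mul, hH'', hdetp]
  have hd2 : LinearMap.det (1 - τ) ^ (p - 1) =
      (p : ℤ) ^ finrank ℤ B * LinearMap.det (Polynomial.aeval τ U) := by
    rw [← map_pow, hU', map_mul, hdetp]
  have hdvd : (LinearMap.det (1 - τ)).natAbs ∣ p ^ finrank ℤ B := by
    have : LinearMap.det (1 - τ) ∣ (p : ℤ) ^ finrank ℤ B := Dvd.intro _ hd1
    have := Int.natAbs_dvd_natAbs.mpr this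
    simpa [Int.natAbs_pow] using this
  obtain ⟨c, -, hc⟩ := (Nat.dvd_prime_pow hp.out).mp hdvd
  refine ⟨c, hc, ?_⟩
  have hdvd2 : p ^ finrank ℤ B ∣ (p ^ c) ^ (p - 1) := by
    rw [← hc, ← Int.natAbs_pow, hd2, Int.natAbs_mul, Int.natAbs_pow, Int.natAbs_natCast]
    exact Dvd.intro _ rfl
  rw [← pow_mul] at hdvd2
  exact (Nat.pow_dvd_pow_iff_le_right hp.out.one_lt).mp hdvd2

/-- Relative index of the image of a submodule under an endomorphism preserving it, computed
on the submodule. -/
theorem fi_relIndex_map_eq_index (N : Submodule ℤ B) (φ : Module.End ℤ B) (φ₀ : Module.End ℤ N)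
    (h : ∀ x : N, ((φ₀ x : N) : B) = φ x) :
    (N.toAddSubgroup.map φ.toAddMonoidHom).relIndex N.toAddSubgroup
      = (LinearMap.range φ₀).toAddSubgroup.index := by
  have hinj : Function.Injective N.subtype.toAddMonoidHom := N.injective_subtype
  rw [← AddSubgroup.relIndex_top_right,
    ← AddSubgroup.relIndex_map_map_of_injective _ _ hinj]
  congr 1
  · ext y
    simp only [AddSubgroup.mem_map, Submodule.mem_toAddSubgroup, LinearMap.toAddMonoidHom_coe,
      LinearMap.mem_range, Submodule.coe_subtype]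
    constructor
    · rintro ⟨x, hx, rfl⟩
      exact ⟨φ₀ ⟨x, hx⟩, ⟨⟨x, hx⟩, rfl⟩, h ⟨x, hx⟩⟩
    · rintro ⟨_, ⟨x, rfl⟩, rfl⟩
      exact ⟨x, x.2, (h x).symm⟩
  · ext y
    simp only [Submodule.mem_toAddSubgroup, AddSubgroup.mem_map, AddSubgroup.mem_top, true_and,
      LinearMap.toAddMonoidHom_coe, Submodule.coe_subtype]
    constructor
    · intro hy
      exact ⟨⟨y, hy⟩, rfl⟩
    · rintro ⟨x, rfl⟩
      exact x.2

/-- Herbrand quotient inequality for a lattice with an automorphism of prime order `p`: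
if the fixed sublattice has rank `≤ a` and the lattice has rank `≥ p a + p - 1`, then
`p * [ker θ : im ν] ≤ [ker ν : im θ]` where `θ = 1 - τ`, `ν = 1 + τ + ... + τ^(p-1)`. -/
theorem fi_lattice_herbrand (p : ℕ) [hp : Fact p.Prime] (τ : Module.End ℤ B) (hτ : τ ^ p = 1)
    (a : ℕ) (ha : finrank ℤ (LinearMap.ker (1 - τ)) ≤ a) (hn : p * a + p ≤ finrank ℤ B + 1) :
    (LinearMap.range (∑ i ∈ Finset.range p, τ ^ i)).toAddSubgroup.relIndex
        (LinearMap.ker (1 - τ)).toAddSubgroup ≠ 0 ∧
      p * (LinearMap.range (∑ i ∈ Finset.range p, τ ^ i)).toAddSubgroup.relIndex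
        (LinearMap.ker (1 - τ)).toAddSubgroup
        ≤ (LinearMap.range (1 - τ)).toAddSubgroup.relIndex
          (LinearMap.ker (∑ i ∈ Finset.range p, τ ^ i)).toAddSubgroup := by
  set ν : Module.End ℤ B := ∑ i ∈ Finset.range p, τ ^ i with hνdef
  set θ : Module.End ℤ B := 1 - τ with hθdef
  have hθν : θ * ν = 0 := by rw [hθdef, hνdef, mul_neg_geom_sum, hτ, sub_self]
  have hνθ : ν * θ = 0 := by rw [hθdef, hνdef, geom_sum_mul_neg, hτ, sub_self]
  have hθν' : ∀ x, θ.toAddMonoidHom (ν.toAddMonoidHom x) = 0 := fun x => by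
    have := LinearMap.congr_fun hθν x
    simpa using this
  have hνθ' : ∀ x, ν.toAddMonoidHom (θ.toAddMonoidHom x) = 0 := fun x => by
    have := LinearMap.congr_fun hνθ x
    simpa using this
  have E1 := fi_add_index_sup_ker_mul θ.toAddMonoidHom ν.toAddMonoidHom hθν'
  have E2 := fi_add_index_sup_ker_mul ν.toAddMonoidHom θ.toAddMonoidHom hνθ'
  rw [← LinearMap.ker_toAddSubgroup, ← LinearMap.ker_toAddSubgroup,
    ← LinearMap.range_toAddSubgroup] at E1 E2
  rw [sup_comm] at E2
  set m := ((LinearMap.ker θ).toAddSubgroup ⊔ (LinearMap.ker ν).toAddSubgroup).index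
  set h0 := (LinearMap.range ν).toAddSubgroup.relIndex (LinearMap.ker θ).toAddSubgroup
  set h1 := (LinearMap.range θ).toAddSubgroup.relIndex (LinearMap.ker ν).toAddSubgroup
  -- (T3)
  have hτfix : ∀ x ∈ LinearMap.ker θ, τ x = x := by
    intro x hx
    have : θ x = 0 := hx
    rw [hθdef, LinearMap.sub_apply, Module.End.one_apply, sub_eq_zero] at this
    exact this.symm
  have hνfix : ∀ x ∈ LinearMap.ker θ, ν x = (p : ℤ) • x := by
    intro x hx
    have hpow : ∀ i : ℕ, (τ ^ i) x = x := by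
      intro i
      induction i with
      | zero => simp
      | succ i ih => rw [pow_succ, Module.End.mul_apply, hτfix x hx, ih]
    rw [hνdef, LinearMap.sum_apply]
    simp [hpow]
  have T3 : ((LinearMap.ker θ).toAddSubgroup.map ν.toAddMonoidHom).relIndex
      (LinearMap.ker θ).toAddSubgroup = p ^ finrank ℤ (LinearMap.ker θ) := by
    rw [fi_relIndex_map_eq_index (LinearMap.ker θ) ν ((p : ℤ) • (1 : Module.End ℤ _))
      (fun x => by simp [hνfix x x.2]),
      fi_index_range_eq_natAbs_det, LinearMap.det_smul, map_one, mul_one, Int.natAbs_pow,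
      Int.natAbs_natCast]
    intro x y hxy
    have : (p : ℤ) • (x - y) = 0 := by
      simpa [smul_sub, sub_eq_zero] using hxy
    rcases smul_eq_zero.mp this with h3 | h3
    · exact absurd h3 (by exact_mod_cast hp.out.ne_zero)
    · exact sub_eq_zero.mp h3
  -- (T4)
  have hcomm : ν * τ = τ * ν := by
    rw [hνdef, Finset.sum_mul, Finset.mul_sum]
    exact Finset.sum_congr rfl fun i _ => by rw [← pow_succ, ← pow_succ']
  have hstab : ∀ x ∈ LinearMap.ker ν, τ x ∈ LinearMap.ker ν := by
    intro x hx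
    rw [LinearMap.mem_ker] at hx ⊢
    have := LinearMap.congr_fun hcomm x
    rw [Module.End.mul_apply, Module.End.mul_apply, hx, map_zero] at this
    exact this
  set τ₀ : Module.End ℤ (LinearMap.ker ν) := τ.restrict hstab with hτ₀
  have hpow₀ : ∀ (i : ℕ) (x : LinearMap.ker ν), (((τ₀ ^ i) x : LinearMap.ker ν) : B)
      = (τ ^ i) x := by
    intro i
    induction i with
    | zero => intro x; simp
    | succ i ih =>
      intro x
      rw [pow_succ, Module.End.mul_apply, ih, pow_succ, Module.End.mul_apply]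
      rfl
  have hν₀ : ∑ i ∈ Finset.range p, τ₀ ^ i = 0 := by
    ext x
    rw [LinearMap.sum_apply]
    simp only [LinearMap.zero_apply, ZeroMemClass.coe_zero, AddSubmonoidClass.coe_finsetSum,
      hpow₀]
    have h := x.2
    rw [LinearMap.mem_ker] at h
    rw [← h]
    exact (LinearMap.sum_apply _ _ _).symm
  obtain ⟨hinj, c, hc, hbc⟩ := fi_det_one_sub p τ₀ hν₀
  have T4 : ((LinearMap.ker ν).toAddSubgroup.map θ.toAddMonoidHom).relIndex
      (LinearMap.ker ν).toAddSubgroup = p ^ c := by
    rw [fi_relIndex_map_eq_index (LinearMap.ker ν) θ (1 - τ₀)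
      (fun x => by simp [hθdef, hτ₀]), fi_index_range_eq_natAbs_det _ hinj, hc]
  -- ranks
  have hrank : finrank ℤ (LinearMap.ker ν) + finrank ℤ (LinearMap.range ν) = finrank ℤ B := by
    rw [← ν.quotKerEquivRange.finrank_eq, add_comm]
    exact Submodule.finrank_quotient_add_finrank _
  have hrange_le : finrank ℤ (LinearMap.range ν) ≤ finrank ℤ (LinearMap.ker θ) := by
    apply Submodule.finrank_mono
    rintro _ ⟨x, rfl⟩
    have := LinearMap.congr_fun hθν x
    simpa using this
  rw [T3] at E1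
  rw [T4] at E2
  -- arithmetic
  set a' := finrank ℤ (LinearMap.ker θ)
  set b := finrank ℤ (LinearMap.ker ν)
  have hp1 : 1 ≤ p := hp.out.one_le
  have hmpos : m ≠ 0 := by
    intro h
    rw [h, zero_mul] at E1
    exact (pow_ne_zero _ hp.out.ne_zero) E1.symm
  have h0pos : h0 ≠ 0 := by
    intro h
    rw [h, mul_zero] at E1
    exact (pow_ne_zero _ hp.out.ne_zero) E1.symm
  refine ⟨h0pos, ?_⟩
  have hca : a' + 1 ≤ c := by
    by_contra hlt
    have h1' : c ≤ a' := by omega
    have h2 : c * (p - 1) ≤ a' * (p - 1) := Nat.mul_le_mul_right _ h1'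
    have h3 : p * a' ≤ p * a := Nat.mul_le_mul_left _ ha
    have hp2 : 2 ≤ p := hp.out.two_le
    obtain ⟨k, rfl⟩ : ∃ k, p = k + 1 := ⟨p - 1, by omega⟩
    simp only [Nat.add_sub_cancel] at h2 hbc
    have h4 : (k + 1) * a' = a' * k + a' := by ring
    have h5 : (k + 1) * a = k * a + a := by ring
    omega
  obtain ⟨k, rfl⟩ : ∃ k, c = a' + 1 + k := ⟨c - (a' + 1), by omega⟩
  have : m * h1 = p ^ k * (p * (m * h0)) := by
    rw [E2, E1]; ring
  have hle : m * (p * h0) ≤ m * h1 := by
    rw [this]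
    calc m * (p * h0) = 1 * (p * (m * h0)) := by ring
      _ ≤ p ^ k * (p * (m * h0)) := Nat.mul_le_mul_right _ (Nat.one_le_pow _ _ (by omega))
  exact Nat.le_of_mul_le_mul_left hle (Nat.pos_of_ne_zero hmpos)

end Det

section ModuleVersion

/-- Herbrand quotient inequality for a finitely generated `ℤ`-module with an endomorphism of
prime order `p` (torsion allowed; `w` kills the torsion). -/
theorem fi_module_herbrand {M : Type*} [AddCommGroup M] [Module.Finite ℤ M]
    (p : ℕ) [hp : Fact p.Prime] (τ : Module.End ℤ M) (hτ : τ ^ p = 1)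
    (w : ℤ) (hw : w ≠ 0) (htors : ∀ (x : M) (n : ℤ), n ≠ 0 → n • x = 0 → w • x = 0)
    (a : ℕ) (ha : finrank ℤ (LinearMap.ker (1 - τ)) ≤ a) (hn : p * a + p ≤ finrank ℤ M + 1) :
    (LinearMap.range (∑ i ∈ Finset.range p, τ ^ i)).toAddSubgroup.relIndex
        (LinearMap.ker (1 - τ)).toAddSubgroup ≠ 0 ∧
      p * (LinearMap.range (∑ i ∈ Finset.range p, τ ^ i)).toAddSubgroup.relIndex
        (LinearMap.ker (1 - τ)).toAddSubgroup
        ≤ (LinearMap.range (1 - τ)).toAddSubgroup.relIndex
          (LinearMap.ker (∑ i ∈ Finset.range p, τ ^ i)).toAddSubgroup := by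
  set φ : Module.End ℤ M := w • (1 : Module.End ℤ M) with hφ
  set A : Submodule ℤ M := LinearMap.range φ with hA
  have hφx : ∀ x, φ x = w • x := fun x => by simp [hφ]
  -- torsion-free
  have : Module.IsTorsionFree ℤ A := by
    apply Module.IsTorsionFree.of_smul_eq_zero
    rintro r ⟨_, ⟨y, rfl⟩⟩ h
    by_cases hr : r = 0
    · exact Or.inl hr
    right
    have h1 : r • φ y = 0 := by
      have := congrArg Subtype.val h
      simpa using this
    rw [hφx, smul_smul] at h1
    have h2 := htors y (r * w) (mul_ne_zero hr hw) h1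
    ext
    simpa [hφx] using h2
  have : Module.Free ℤ A := Module.free_of_finite_type_torsion_free'
  -- stability
  have hstab : ∀ x ∈ A, τ x ∈ A := by
    rintro _ ⟨y, rfl⟩
    exact ⟨τ y, by rw [hφx, hφx, map_smul]⟩
  set τA : Module.End ℤ A := τ.restrict hstab with hτA
  have hpowA : ∀ (i : ℕ) (x : A), (((τA ^ i) x : A) : M) = (τ ^ i) x := by
    intro i
    induction i with
    | zero => intro x; simp
    | succ i ih =>
      intro x
      rw [pow_succ, Module.End.mul_apply, ih, pow_succ, Module.End.mul_apply]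
      rfl
  have hτAp : τA ^ p = 1 := by
    ext x
    rw [hpowA, hτ]
    simp
  -- ranks
  have hkerφ : finrank ℤ (LinearMap.ker φ) = 0 := by
    apply Module.IsTorsion.finrank_eq_zero
    intro x
    refine ⟨⟨w, mem_nonZeroDivisors_of_ne_zero hw⟩, ?_⟩
    ext
    have := x.2
    rw [LinearMap.mem_ker, hφx] at this
    simpa using this
  have hrankA : finrank ℤ A = finrank ℤ M := by
    have h1 : finrank ℤ (M ⧸ LinearMap.ker φ) + finrank ℤ (LinearMap.ker φ) = finrank ℤ M :=
      Submodule.finrank_quotient_add_finrank _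
    rw [hkerφ, add_zero, φ.quotKerEquivRange.finrank_eq] at h1
    exact h1
  have hkerA : finrank ℤ (LinearMap.ker (1 - τA)) ≤ a := by
    refine le_trans ?_ ha
    let f : LinearMap.ker (1 - τA) →ₗ[ℤ] LinearMap.ker (1 - τ) :=
      LinearMap.codRestrict _ (A.subtype ∘ₗ (LinearMap.ker (1 - τA)).subtype) (by
        intro x
        have h1 : (1 - τA) (x : A) = 0 := x.2
        have h2 : (((1 - τA) (x : A) : A) : M) = 0 := by rw [h1]; rfl
        rw [LinearMap.mem_ker]
        simp only [LinearMap.sub_apply, Module.End.one_apply, Submodule.coe_sub, hτA,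
          LinearMap.coe_restrict_apply] at h2
        simpa using h2)
    apply LinearMap.finrank_le_finrank_of_injective (f := f)
    intro x y hxy
    have := congrArg Subtype.val hxy
    ext
    simpa [f] using this
  have hlat := fi_lattice_herbrand p τA hτAp a hkerA (by rw [hrankA]; exact hn)
  -- finite index
  have hidx : A.toAddSubgroup.index ≠ 0 := by
    have : Finite (M ⧸ A) := by
      apply Module.finite_of_fg_torsion
      intro x
      refine ⟨⟨w, mem_nonZeroDivisors_of_ne_zero hw⟩, ?_⟩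
      obtain ⟨y, rfl⟩ := Submodule.Quotient.mk_surjective _ x
      rw [Submonoid.mk_smul, ← Submodule.Quotient.mk_smul, Submodule.Quotient.mk_eq_zero]
      exact ⟨y, hφx y⟩
    rw [AddSubgroup.index_eq_card]
    exact (Nat.card_pos (α := M ⧸ A)).ne'
  have hθν : ∀ x, (1 - τ).toAddMonoidHom ((∑ i ∈ Finset.range p, τ ^ i).toAddMonoidHom x) = 0 := by
    intro x
    have h : (1 - τ) * (∑ i ∈ Finset.range p, τ ^ i) = 0 := by
      rw [mul_neg_geom_sum, hτ, sub_self]
    have := LinearMap.congr_fun h x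
    simpa using this
  have hνθ : ∀ x, (∑ i ∈ Finset.range p, τ ^ i).toAddMonoidHom ((1 - τ).toAddMonoidHom x) = 0 := by
    intro x
    have h : (∑ i ∈ Finset.range p, τ ^ i) * (1 - τ) = 0 := by
      rw [geom_sum_mul_neg, hτ, sub_self]
    have := LinearMap.congr_fun h x
    simpa using this
  have hrange : A.subtype.toAddMonoidHom.range = A.toAddSubgroup := by
    ext x
    simp only [AddMonoidHom.mem_range, LinearMap.toAddMonoidHom_coe, Submodule.coe_subtype,
      Submodule.mem_toAddSubgroup]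
    constructor
    · rintro ⟨y, rfl⟩
      exact y.2
    · intro hx
      exact ⟨⟨x, hx⟩, rfl⟩
  have htr := fi_add_herbrand_transport A.subtype.toAddMonoidHom A.injective_subtype
    (by rw [hrange]; exact hidx) (1 - τ).toAddMonoidHom
    (∑ i ∈ Finset.range p, τ ^ i).toAddMonoidHom (1 - τA).toAddMonoidHom
    (∑ i ∈ Finset.range p, τA ^ i).toAddMonoidHom
    (by
      intro x
      simp [hτA])
    (by
      intro x
      simp [LinearMap.sum_apply, hpowA])
    hθν hνθ
  rw [← LinearMap.range_toAddSubgroup, ← LinearMap.ker_toAddSubgroup,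
    ← LinearMap.range_toAddSubgroup, ← LinearMap.ker_toAddSubgroup,
    ← LinearMap.range_toAddSubgroup, ← LinearMap.ker_toAddSubgroup,
    ← LinearMap.range_toAddSubgroup, ← LinearMap.ker_toAddSubgroup] at htr
  obtain ⟨heq, hne0, -⟩ := htr
  obtain ⟨hA0, hAle⟩ := hlat
  refine ⟨hne0 hA0, ?_⟩
  set X0 := (LinearMap.range (∑ i ∈ Finset.range p, τ ^ i)).toAddSubgroup.relIndex
        (LinearMap.ker (1 - τ)).toAddSubgroup
  set X1 := (LinearMap.range (1 - τ)).toAddSubgroup.relIndex
          (LinearMap.ker (∑ i ∈ Finset.range p, τ ^ i)).toAddSubgroup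
  set Y0 := (LinearMap.range (∑ i ∈ Finset.range p, τA ^ i)).toAddSubgroup.relIndex
        (LinearMap.ker (1 - τA)).toAddSubgroup
  set Y1 := (LinearMap.range (1 - τA)).toAddSubgroup.relIndex
          (LinearMap.ker (∑ i ∈ Finset.range p, τA ^ i)).toAddSubgroup
  have h3 : Y0 * (p * X0) ≤ Y0 * X1 := by
    rw [← heq]
    calc Y0 * (p * X0) = X0 * (p * Y0) := by ring
      _ ≤ X0 * Y1 := Nat.mul_le_mul_left _ hAle
  exact Nat.le_of_mul_le_mul_left h3 (Nat.pos_of_ne_zero hA0)

end ModuleVersion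

end Fermat.Agent.S14
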