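import Mathlib

/-!
# S14 / first inequality block (3A): maps between class groups

* `fi_clLift`: a monoid hom `(Ideal R)⁰ →* (Ideal S)⁰` preserving principal ideals induces a
  group hom `ClassGroup R →* ClassGroup S`.
* `fi_clAct σ`, `fi_clNorm`, `fi_clExt`: Galois action, norm, extension on class groups of
  rings of integers.
* `fi_card_range_le_card_fixed`: abstract counting lemma.
-/

set_option autoImplicit false
set_option linter.overlappingInstances false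
set_option linter.unusedSectionVars false

namespace Fermat.Agent.S14

open NumberField nonZeroDivisors

section Lift

variable {R S : Type*} [CommRing R] [IsDomain R] [IsDedekindDomain R]
  [CommRing S] [IsDomain S] [IsDedekindDomain S]

/-- Well-definedness: a hom preserving principal ideals is constant on ideal classes. -/
theorem fi_clLift_wd (φ : (Ideal R)⁰ →* (Ideal S)⁰)
    (hφ : ∀ I : (Ideal R)⁰, (I : Ideal R).IsPrincipal → (φ I : Ideal S).IsPrincipal)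
    {I J : (Ideal R)⁰} (h : ClassGroup.mk0 I = ClassGroup.mk0 J) :
    ClassGroup.mk0 (φ I) = ClassGroup.mk0 (φ J) := by
  obtain ⟨x, y, hx, hy, hxy⟩ := ClassGroup.mk0_eq_mk0_iff.mp h
  have hx0 : Ideal.span {x} ∈ (Ideal R)⁰ :=
    mem_nonZeroDivisors_iff_ne_zero.mpr (by simpa using hx)
  have hy0 : Ideal.span {y} ∈ (Ideal R)⁰ :=
    mem_nonZeroDivisors_iff_ne_zero.mpr (by simpa using hy)
  have e : (⟨Ideal.span {x}, hx0⟩ : (Ideal R)⁰) * I = ⟨Ideal.span {y}, hy0⟩ * J :=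
    Subtype.ext hxy
  have e' := congrArg (fun t => ClassGroup.mk0 (φ t)) e
  simp only [map_mul] at e'
  have h1 : ClassGroup.mk0 (φ ⟨Ideal.span {x}, hx0⟩) = 1 := by
    have := hφ ⟨Ideal.span {x}, hx0⟩ ⟨x, rfl⟩
    exact (ClassGroup.mk0_eq_one_iff (φ ⟨Ideal.span {x}, hx0⟩).2).mpr this
  have h2 : ClassGroup.mk0 (φ ⟨Ideal.span {y}, hy0⟩) = 1 := by
    have := hφ ⟨Ideal.span {y}, hy0⟩ ⟨y, rfl⟩
    exact (ClassGroup.mk0_eq_one_iff (φ ⟨Ideal.span {y}, hy0⟩).2).mpr this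
  rwa [h1, h2, one_mul, one_mul] at e'

/-- The group hom on class groups induced by a hom on nonzero ideals which preserves principal
ideals. -/
noncomputable def fi_clLift (φ : (Ideal R)⁰ →* (Ideal S)⁰)
    (hφ : ∀ I : (Ideal R)⁰, (I : Ideal R).IsPrincipal → (φ I : Ideal S).IsPrincipal) :
    ClassGroup R →* ClassGroup S :=
  MonoidHom.mk' (fun c => ClassGroup.mk0 (φ (Function.surjInv ClassGroup.mk0_surjective c)))
    (by
      intro c d
      have hc := Function.surjInv_eq ClassGroup.mk0_surjective c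
      have hd := Function.surjInv_eq ClassGroup.mk0_surjective d
      have hcd := Function.surjInv_eq ClassGroup.mk0_surjective (c * d)
      rw [← map_mul, ← map_mul]
      apply fi_clLift_wd φ hφ
      rw [hcd, map_mul, hc, hd])

theorem fi_clLift_mk0 (φ : (Ideal R)⁰ →* (Ideal S)⁰)
    (hφ : ∀ I : (Ideal R)⁰, (I : Ideal R).IsPrincipal → (φ I : Ideal S).IsPrincipal)
    (I : (Ideal R)⁰) :
    fi_clLift φ hφ (ClassGroup.mk0 I) = ClassGroup.mk0 (φ I) := by
  change ClassGroup.mk0 (φ (Function.surjInv ClassGroup.mk0_surjective (ClassGroup.mk0 I))) = _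
  apply fi_clLift_wd φ hφ
  exact Function.surjInv_eq ClassGroup.mk0_surjective _

end Lift

section Count

/-- If `N ∘ t = N` then the image of `N` is at most as large as the group of fixed points
of `t`. -/
theorem fi_card_range_le_card_fixed {M C : Type*} [CommGroup M] [Finite M] [CommGroup C]
    (t : M →* M) (N : M →* C) (h : ∀ x, N (t x) = N x) :
    Nat.card N.range ≤ Nat.card {x : M // t x = x} := by
  -- `D x = t x / x`
  let D : M →* M := t / MonoidHom.id M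
  have hDker : (D.ker : Set M) = {x : M | t x = x} := by
    ext x
    simp [D, MonoidHom.mem_ker, div_eq_one]
  have hcardker : Nat.card {x : M // t x = x} = Nat.card D.ker := by
    apply Nat.card_congr
    exact Equiv.setCongr hDker.symm
  have hle : D.range ≤ N.ker := by
    rintro _ ⟨x, rfl⟩
    simp [D, MonoidHom.mem_ker, h]
  have h1 : Nat.card D.ker * Nat.card D.range = Nat.card M := by
    rw [← Subgroup.index_ker]; exact Subgroup.card_mul_index _
  have h2 : Nat.card N.ker * Nat.card N.range = Nat.card M := by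
    rw [← Subgroup.index_ker]; exact Subgroup.card_mul_index _
  have h3 : Nat.card D.range ≤ Nat.card N.ker := Subgroup.card_le_of_le hle
  have h4 : 0 < Nat.card D.range := Nat.card_pos
  rw [hcardker]
  have : Nat.card N.range * Nat.card D.range ≤ Nat.card D.ker * Nat.card D.range := by
    calc Nat.card N.range * Nat.card D.range ≤ Nat.card N.range * Nat.card N.ker :=
          Nat.mul_le_mul_left _ h3
      _ = Nat.card M := by rw [mul_comm, h2]
      _ = Nat.card D.ker * Nat.card D.range := h1.symm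
  exact Nat.le_of_mul_le_mul_right this h4

end Count

section NumberField

open scoped Pointwise

variable {F K : Type*} [Field F] [NumberField F] [Field K] [NumberField K] [Algebra F K]

/-- The Galois action on `𝓞 K` commutes with the scalar action of `𝓞 F`. -/
instance fi_smulCommClass : SMulCommClass Gal(K/F) (𝓞 F) (𝓞 K) where
  smul_comm σ r x := by
    have h : σ • (algebraMap (𝓞 F) (𝓞 K) r) = algebraMap (𝓞 F) (𝓞 K) r := by
      apply RingOfIntegers.ext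
      change σ (algebraMap F K (r : F)) = algebraMap F K (r : F)
      exact AlgEquiv.commutes σ _
    rw [Algebra.smul_def, Algebra.smul_def, smul_mul', h]

theorem fi_smul_ne_bot (σ : Gal(K/F)) {A : Ideal (𝓞 K)} (hA : A ≠ ⊥) : σ • A ≠ ⊥ := by
  intro h
  apply hA
  have := congrArg (fun B => σ⁻¹ • B) h
  simp only [inv_smul_smul] at this
  rw [this, ← Ideal.zero_eq_bot, smul_zero]

theorem fi_smul_span_singleton (σ : Gal(K/F)) (x : 𝓞 K) :
    σ • Ideal.span {x} = Ideal.span {σ • x} := by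
  rw [Ideal.pointwise_smul_def, Ideal.map_span, Set.image_singleton]
  rfl

/-- `A ↦ σ • A` on nonzero ideals. -/
noncomputable def fi_idealAct (σ : Gal(K/F)) : (Ideal (𝓞 K))⁰ →* (Ideal (𝓞 K))⁰ where
  toFun A := ⟨σ • (A : Ideal (𝓞 K)), mem_nonZeroDivisors_iff_ne_zero.mpr
    (fi_smul_ne_bot σ (mem_nonZeroDivisors_iff_ne_zero.mp A.2))⟩
  map_one' := Subtype.ext (smul_one σ)
  map_mul' A B := Subtype.ext (smul_mul' σ (A : Ideal (𝓞 K)) (B : Ideal (𝓞 K)))

@[simp]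
theorem fi_idealAct_coe (σ : Gal(K/F)) (A : (Ideal (𝓞 K))⁰) :
    (fi_idealAct σ A : Ideal (𝓞 K)) = σ • (A : Ideal (𝓞 K)) := rfl

theorem fi_idealAct_principal (σ : Gal(K/F)) (A : (Ideal (𝓞 K))⁰)
    (hA : (A : Ideal (𝓞 K)).IsPrincipal) : (fi_idealAct σ A : Ideal (𝓞 K)).IsPrincipal := by
  obtain ⟨x, hx⟩ := hA
  refine ⟨σ • x, ?_⟩
  rw [fi_idealAct_coe, hx]
  exact fi_smul_span_singleton σ x

/-- The action of `σ ∈ Gal(K/F)` on the class group of `K`. -/
noncomputable def fi_clAct (σ : Gal(K/F)) : ClassGroup (𝓞 K) →* ClassGroup (𝓞 K) :=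
  fi_clLift (fi_idealAct σ) (fi_idealAct_principal σ)

theorem fi_clAct_mk0 (σ : Gal(K/F)) (A : (Ideal (𝓞 K))⁰) :
    fi_clAct σ (ClassGroup.mk0 A) = ClassGroup.mk0 (fi_idealAct σ A) :=
  fi_clLift_mk0 _ _ A

/-- `A ↦ relNorm A` on nonzero ideals. -/
noncomputable def fi_idealNorm : (Ideal (𝓞 K))⁰ →* (Ideal (𝓞 F))⁰ where
  toFun A := ⟨Ideal.relNorm (𝓞 F) (A : Ideal (𝓞 K)), mem_nonZeroDivisors_iff_ne_zero.mpr
    (fun h => mem_nonZeroDivisors_iff_ne_zero.mp A.2 (Ideal.relNorm_eq_bot_iff.mp h))⟩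
  map_one' := Subtype.ext (map_one (Ideal.relNorm (𝓞 F)))
  map_mul' _ _ := Subtype.ext (map_mul (Ideal.relNorm (𝓞 F)) _ _)

@[simp]
theorem fi_idealNorm_coe (A : (Ideal (𝓞 K))⁰) :
    (fi_idealNorm (F := F) A : Ideal (𝓞 F)) = Ideal.relNorm (𝓞 F) (A : Ideal (𝓞 K)) := rfl

theorem fi_idealNorm_principal (A : (Ideal (𝓞 K))⁰)
    (hA : (A : Ideal (𝓞 K)).IsPrincipal) :
    (fi_idealNorm (F := F) A : Ideal (𝓞 F)).IsPrincipal := by
  obtain ⟨x, hx⟩ := hA
  refine ⟨Algebra.intNorm (𝓞 F) (𝓞 K) x, ?_⟩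
  rw [fi_idealNorm_coe, hx]
  exact Ideal.relNorm_singleton (𝓞 F) x

/-- The norm map `Cl_K → Cl_F`. -/
noncomputable def fi_clNorm : ClassGroup (𝓞 K) →* ClassGroup (𝓞 F) :=
  fi_clLift (fi_idealNorm (F := F) (K := K)) fi_idealNorm_principal

theorem fi_clNorm_mk0 (A : (Ideal (𝓞 K))⁰) :
    fi_clNorm (F := F) (ClassGroup.mk0 A) = ClassGroup.mk0 (fi_idealNorm (F := F) A) :=
  fi_clLift_mk0 _ _ A

theorem fi_idealNorm_idealAct (σ : Gal(K/F)) (A : (Ideal (𝓞 K))⁰) :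
    fi_idealNorm (F := F) (fi_idealAct σ A) = fi_idealNorm (F := F) A :=
  Subtype.ext (Ideal.relNorm_smul (𝓞 F) σ (A : Ideal (𝓞 K)))

theorem fi_clNorm_clAct (σ : Gal(K/F)) (c : ClassGroup (𝓞 K)) :
    fi_clNorm (F := F) (fi_clAct σ c) = fi_clNorm (F := F) c := by
  obtain ⟨A, rfl⟩ := ClassGroup.mk0_surjective c
  rw [fi_clAct_mk0, fi_clNorm_mk0, fi_clNorm_mk0, fi_idealNorm_idealAct]

/-- `a ↦ a 𝓞_K` on nonzero ideals. -/
noncomputable def fi_idealExt : (Ideal (𝓞 F))⁰ →* (Ideal (𝓞 K))⁰ where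
  toFun a := ⟨(a : Ideal (𝓞 F)).map (algebraMap (𝓞 F) (𝓞 K)),
    mem_nonZeroDivisors_iff_ne_zero.mpr (fun h => mem_nonZeroDivisors_iff_ne_zero.mp a.2
      ((Ideal.map_eq_bot_iff_of_injective (RingOfIntegers.algebraMap.injective F K)).mp h))⟩
  map_one' := Subtype.ext (by simp [Ideal.one_eq_top, Ideal.map_top])
  map_mul' a b := Subtype.ext (Ideal.map_mul _ _ _)

@[simp]
theorem fi_idealExt_coe (a : (Ideal (𝓞 F))⁰) :
    (fi_idealExt (K := K) a : Ideal (𝓞 K)) =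
      (a : Ideal (𝓞 F)).map (algebraMap (𝓞 F) (𝓞 K)) := rfl

theorem fi_idealExt_principal (a : (Ideal (𝓞 F))⁰)
    (ha : (a : Ideal (𝓞 F)).IsPrincipal) :
    (fi_idealExt (K := K) a : Ideal (𝓞 K)).IsPrincipal := by
  obtain ⟨x, hx⟩ := ha
  refine ⟨algebraMap (𝓞 F) (𝓞 K) x, ?_⟩
  rw [fi_idealExt_coe, hx]
  change Ideal.map _ (Ideal.span {x}) = Ideal.span {_}
  rw [Ideal.map_span, Set.image_singleton]

/-- The extension map `Cl_F → Cl_K`. -/
noncomputable def fi_clExt : ClassGroup (𝓞 F) →* ClassGroup (𝓞 K) :=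
  fi_clLift (fi_idealExt (F := F) (K := K)) fi_idealExt_principal

theorem fi_clExt_mk0 (a : (Ideal (𝓞 F))⁰) :
    fi_clExt (K := K) (ClassGroup.mk0 a) = ClassGroup.mk0 (fi_idealExt (K := K) a) :=
  fi_clLift_mk0 _ _ a

theorem fi_clAct_one : fi_clAct (1 : Gal(K/F)) = MonoidHom.id _ := by
  ext c
  obtain ⟨A, rfl⟩ := ClassGroup.mk0_surjective c
  rw [fi_clAct_mk0, MonoidHom.id_apply]
  congr 1
  exact Subtype.ext (one_smul _ _)

theorem fi_clAct_mul (σ τ : Gal(K/F)) : fi_clAct (σ * τ) = (fi_clAct σ).comp (fi_clAct τ) := by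
  ext c
  obtain ⟨A, rfl⟩ := ClassGroup.mk0_surjective c
  rw [MonoidHom.comp_apply, fi_clAct_mk0, fi_clAct_mk0, fi_clAct_mk0]
  congr 1
  exact Subtype.ext (mul_smul _ _ _)

/-- A class `[A]` is fixed by `σ` iff `(x) σA = (y) A` for some nonzero `x y`. -/
theorem fi_clAct_mk0_eq_iff (σ : Gal(K/F)) (A : (Ideal (𝓞 K))⁰) :
    fi_clAct σ (ClassGroup.mk0 A) = ClassGroup.mk0 A ↔
      ∃ x y : 𝓞 K, x ≠ 0 ∧ y ≠ 0 ∧
        Ideal.span {x} * σ • (A : Ideal (𝓞 K)) = Ideal.span {y} * (A : Ideal (𝓞 K)) := by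
  rw [fi_clAct_mk0, ClassGroup.mk0_eq_mk0_iff]
  constructor
  · rintro ⟨x, y, hx, hy, h⟩
    exact ⟨x, y, hx, hy, h⟩
  · rintro ⟨x, y, hx, hy, h⟩
    exact ⟨x, y, hx, hy, h⟩

theorem fi_smul_map_algebraMap (σ : Gal(K/F)) (a : Ideal (𝓞 F)) :
    σ • a.map (algebraMap (𝓞 F) (𝓞 K)) = a.map (algebraMap (𝓞 F) (𝓞 K)) := by
  rw [Ideal.pointwise_smul_def, Ideal.map_map]
  congr 1
  ext r
  change σ (algebraMap F K (r : F)) = algebraMap F K (r : F)
  exact AlgEquiv.commutes σ _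

/-- Extended classes are Galois invariant. -/
theorem fi_clAct_clExt (σ : Gal(K/F)) (c : ClassGroup (𝓞 F)) :
    fi_clAct σ (fi_clExt (K := K) c) = fi_clExt (K := K) c := by
  obtain ⟨a, rfl⟩ := ClassGroup.mk0_surjective c
  rw [fi_clExt_mk0, fi_clAct_mk0]
  congr 1
  exact Subtype.ext (fi_smul_map_algebraMap σ _)

/-- `N ∘ j` is the `[K:F]`-th power map. -/
theorem fi_clNorm_clExt (c : ClassGroup (𝓞 F)) :
    fi_clNorm (F := F) (fi_clExt (K := K) c) = c ^ Module.finrank F K := by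
  obtain ⟨a, rfl⟩ := ClassGroup.mk0_surjective c
  rw [fi_clExt_mk0, fi_clNorm_mk0, ← map_pow]
  congr 1
  apply Subtype.ext
  rw [fi_idealNorm_coe, fi_idealExt_coe, Ideal.relNorm_algebraMap]
  rw [IsFractionRing.finrank_eq (𝓞 F) F (𝓞 K) K]
  simp only [SubmonoidClass.coe_pow]

/-- `fi_clNorm_mk0` with an arbitrary proof of nonvanishing (shape used by `Main.lean`). -/
theorem fi_clNorm_mk0' (A : (Ideal (𝓞 K))⁰)
    (hA : Ideal.relNorm (𝓞 F) A.1 ∈ (Ideal (𝓞 F))⁰) :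
    fi_clNorm (F := F) (ClassGroup.mk0 A) = ClassGroup.mk0 ⟨Ideal.relNorm (𝓞 F) A.1, hA⟩ :=
  fi_clNorm_mk0 A

/-- `fi_clAct_mk0` with an arbitrary proof of nonvanishing. -/
theorem fi_clAct_mk0' (σ : Gal(K/F)) (A : (Ideal (𝓞 K))⁰)
    (hA : σ • A.1 ∈ (Ideal (𝓞 K))⁰) :
    fi_clAct σ (ClassGroup.mk0 A) = ClassGroup.mk0 ⟨σ • A.1, hA⟩ :=
  fi_clAct_mk0 σ A

/-- `fi_clExt_mk0` with an arbitrary proof of nonvanishing. -/
theorem fi_clExt_mk0' (a : (Ideal (𝓞 F))⁰)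
    (ha : a.1.map (algebraMap (𝓞 F) (𝓞 K)) ∈ (Ideal (𝓞 K))⁰) :
    fi_clExt (K := K) (ClassGroup.mk0 a) =
      ClassGroup.mk0 ⟨a.1.map (algebraMap (𝓞 F) (𝓞 K)), ha⟩ :=
  fi_clExt_mk0 a

end NumberField

end Fermat.Agent.S14
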