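import Fermat.Agent.S14.Artin.ArtinMap

/-!
# S14 / first inequality, FI-3(b): ambiguous ideals of an unramified extension

`K/F` a Galois extension of number fields all of whose finite primes have trivial inertia group.
A nonzero ideal of `𝓞 K` fixed by `Gal(K/F)` is the extension `a𝓞 K` of a unique ideal `a` of
`𝓞 F` (`fi_ai_exists_map_eq`, `fi_ai_map_injective`).
-/

open NumberField

namespace Fermat.Agent.S14

set_option linter.style.haveILetI false
set_option linter.unusedSectionVars false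

open scoped Pointwise

section Ambig

variable {F K : Type*} [Field F] [NumberField F] [Field K] [NumberField K] [Algebra F K]

/-- Extension of ideals from `𝓞 F` to `𝓞 K` is injective. -/
theorem fi_ai_map_injective {a b : Ideal (𝓞 F)}
    (h : a.map (algebraMap (𝓞 F) (𝓞 K)) = b.map (algebraMap (𝓞 F) (𝓞 K))) : a = b := by
  rw [← Ideal.comap_map_eq_self_of_faithfullyFlat (B := 𝓞 K) a, h,
    Ideal.comap_map_eq_self_of_faithfullyFlat]

/-- The relative norm of an extended ideal. -/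
theorem fi_ai_relNorm_map (a : Ideal (𝓞 F)) :
    Ideal.relNorm (𝓞 F) (a.map (algebraMap (𝓞 F) (𝓞 K))) = a ^ Module.finrank F K := by
  rw [Ideal.relNorm_algebraMap, IsFractionRing.finrank_eq (𝓞 F) F (𝓞 K) K]

variable [IsGalois F K]

/-- Extended ideals are Galois-invariant. -/
theorem fi_ai_smul_map (a : Ideal (𝓞 F)) (σ : Gal(K/F)) :
    σ • a.map (algebraMap (𝓞 F) (𝓞 K)) = a.map (algebraMap (𝓞 F) (𝓞 K)) := by
  rw [Ideal.pointwise_smul_def, Ideal.map_map]
  congr 1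
  ext x
  simp only [RingHom.coe_comp, Function.comp_apply]
  exact smul_algebraMap σ x

/-- The extension to `𝓞 K` of an unramified nonzero prime `q` of `𝓞 F` divides every
Galois-invariant ideal contained in a prime above `q`. -/
theorem fi_ai_map_dvd (hur : ∀ P : Ideal (𝓞 K), P.IsPrime → P ≠ ⊥ → P.inertia Gal(K/F) = ⊥)
    (A : Ideal (𝓞 K)) (hA : ∀ σ : Gal(K/F), σ • A = A) (P : Ideal (𝓞 K)) [hP : P.IsPrime]
    (hP0 : P ≠ ⊥) (hAP : A ≤ P) :
    (P.under (𝓞 F)).map (algebraMap (𝓞 F) (𝓞 K)) ∣ A := by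
  classical
  have hq0 : P.under (𝓞 F) ≠ ⊥ := am_under_ne_bot P hP0
  haveI : (P.under (𝓞 F)).IsMaximal := am_isMaximal hq0
  rw [Ideal.map_algebraMap_eq_finsetProd_pow (p := P.under (𝓞 F)) hq0]
  have hunr : am_Unram F K (P.under (𝓞 F)) := fun Q hQ hQq =>
    hur Q hQ (am_ne_bot_of_liesOver hq0 Q)
  rw [am_unram_iff_ramificationIdx _ hq0] at hunr
  have h1 : ∏ Q ∈ (P.under (𝓞 F)).primesOver (𝓞 K), Q ^ Q.ramificationIdx (𝓞 F) =
      ∏ Q ∈ (P.under (𝓞 F)).primesOver (𝓞 K), Q := by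
    apply Finset.prod_congr rfl
    intro Q hQ
    rw [Set.mem_toFinset] at hQ
    rw [hunr Q hQ.1 hQ.2, pow_one]
  rw [h1]
  apply Finset.prod_primes_dvd
  · intro Q hQ
    rw [Set.mem_toFinset] at hQ
    haveI := hQ.1
    haveI := hQ.2
    exact Ideal.prime_of_isPrime (am_ne_bot_of_liesOver hq0 Q) hQ.1
  · intro Q hQ
    rw [Set.mem_toFinset] at hQ
    haveI := hQ.1
    haveI := hQ.2
    obtain ⟨σ, hσ⟩ := Algebra.IsInvariant.exists_smul_of_under_eq (𝓞 F) (𝓞 K) Gal(K/F) P Q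
      ((Ideal.over_def Q (P.under (𝓞 F))))
    rw [Ideal.dvd_iff_le, hσ, ← hA σ]
    exact Ideal.pointwise_smul_le_pointwise_smul_iff.mpr hAP

/-- **Ambiguous ideals of an unramified Galois extension are extended from the base.** -/
theorem fi_ai_exists_map_eq
    (hur : ∀ P : Ideal (𝓞 K), P.IsPrime → P ≠ ⊥ → P.inertia Gal(K/F) = ⊥)
    (A : Ideal (𝓞 K)) (hA0 : A ≠ ⊥) (hA : ∀ σ : Gal(K/F), σ • A = A) :
    ∃ a : Ideal (𝓞 F), a ≠ ⊥ ∧ A = a.map (algebraMap (𝓞 F) (𝓞 K)) := by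
  induction A using WellFoundedGT.induction with
  | ind A ih =>
    by_cases hAtop : A = ⊤
    · exact ⟨⊤, top_ne_bot, by rw [hAtop, Ideal.map_top]⟩
    obtain ⟨P, hPmax, hAP⟩ := Ideal.exists_le_maximal A hAtop
    haveI := hPmax.isPrime
    have hP0 : P ≠ ⊥ := fun h => hA0 (le_bot_iff.mp (h ▸ hAP))
    have hq0 : P.under (𝓞 F) ≠ ⊥ := am_under_ne_bot P hP0
    obtain ⟨B, hB⟩ := fi_ai_map_dvd hur A hA P hP0 hAP
    have hm0 : (P.under (𝓞 F)).map (algebraMap (𝓞 F) (𝓞 K)) ≠ ⊥ :=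
      Ideal.map_ne_bot_of_ne_bot hq0
    have hB0 : B ≠ ⊥ := by
      rintro rfl
      exact hA0 (by rw [hB, Ideal.mul_bot])
    have hBinv : ∀ σ : Gal(K/F), σ • B = B := by
      intro σ
      have h1 := hA σ
      rw [hB, smul_mul', fi_ai_smul_map] at h1
      exact mul_left_cancel₀ hm0 h1
    have hmtop : (P.under (𝓞 F)).map (algebraMap (𝓞 F) (𝓞 K)) ≠ ⊤ := by
      intro h
      have h2 : (P.under (𝓞 F)).map (algebraMap (𝓞 F) (𝓞 K)) ≤ P := Ideal.map_comap_le
      rw [h] at h2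
      exact hPmax.ne_top (top_le_iff.mp h2)
    have hlt : A < B := by
      rw [hB]
      refine lt_of_le_of_ne Ideal.mul_le_right ?_
      intro h
      apply hmtop
      have h3 : (P.under (𝓞 F)).map (algebraMap (𝓞 F) (𝓞 K)) * B = 1 * B := by rw [h, one_mul]
      rw [← Ideal.one_eq_top]
      exact mul_right_cancel₀ hB0 h3
    obtain ⟨b, hb0, hb⟩ := ih B hlt hB0 hBinv
    refine ⟨P.under (𝓞 F) * b, mul_ne_zero hq0 hb0, ?_⟩
    rw [hB, hb, Ideal.map_mul]

/-- Invariance under a generator of the Galois group implies invariance under the whole group. -/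
theorem fi_ai_smul_eq_of_generator {τ : Gal(K/F)} (hτ : ∀ σ : Gal(K/F), σ ∈ Subgroup.zpowers τ)
    {A : Ideal (𝓞 K)} (hτA : τ • A = A) (σ : Gal(K/F)) : σ • A = A := by
  have hmem : σ ∈ MulAction.stabilizer Gal(K/F) A := by
    have hle : Subgroup.zpowers τ ≤ MulAction.stabilizer Gal(K/F) A := by
      rw [Subgroup.zpowers_le]
      exact hτA
    exact hle (hτ σ)
  exact hmem

/-- `fi_ai_exists_map_eq` in the shape of the first-inequality blueprint: `τ` a generator of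
`Gal(K/F)`, unramifiedness as `am_Unram`, conclusion `a.map _ = A`. -/
theorem fi_invariant_ideal {τ : Gal(K/F)} (hτ : ∀ σ : Gal(K/F), σ ∈ Subgroup.zpowers τ)
    (hunr : ∀ q : Ideal (𝓞 F), q.IsPrime → q ≠ ⊥ → am_Unram F K q)
    (A : Ideal (𝓞 K)) (hA : A ≠ ⊥) (hτA : τ • A = A) :
    ∃ a : Ideal (𝓞 F), a ≠ ⊥ ∧ a.map (algebraMap (𝓞 F) (𝓞 K)) = A := by
  have hur : ∀ P : Ideal (𝓞 K), P.IsPrime → P ≠ ⊥ → P.inertia Gal(K/F) = ⊥ := by
    intro P hP hP0
    haveI := hP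
    exact hunr (P.under (𝓞 F)) inferInstance (am_under_ne_bot P hP0) P hP inferInstance
  obtain ⟨a, ha0, ha⟩ := fi_ai_exists_map_eq hur A hA (fi_ai_smul_eq_of_generator hτ hτA)
  exact ⟨a, ha0, ha.symm⟩

end Ambig

end Fermat.Agent.S14
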