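import Mathlib
import Fermat.Agent.S14.FirstIneq.Lattice

/-!
# S14 / first inequality block, part 3: Herbrand quotient of the unit group

`K/F` cyclic of odd prime degree `p` with generator `σ`.  With `θ u = u / σ u` and
`ν u = ∏_{i<p} σ^i u` on `(𝓞 K)ˣ`:
`fi_units_herbrand : [ker θ : im ν] ≠ 0 ∧ p * [ker θ : im ν] ≤ [ker ν : im θ]`.
-/

namespace Fermat.Agent.S14

open NumberField Module

set_option linter.unusedSectionVars false

section Units

variable {F K : Type*} [Field F] [NumberField F] [Field K] [NumberField K] [Algebra F K]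

/-- The action of the Galois group on the unit group of `𝓞 K`. -/
noncomputable def fi_unitAut (g : Gal(K/F)) : (𝓞 K)ˣ ≃* (𝓞 K)ˣ :=
  Units.mapEquiv (MulSemiringAction.toRingEquiv Gal(K/F) (𝓞 K) g).toMulEquiv

@[simp] theorem fi_unitAut_coe (g : Gal(K/F)) (u : (𝓞 K)ˣ) :
    ((fi_unitAut g u : (𝓞 K)ˣ) : 𝓞 K) = g • (u : 𝓞 K) := rfl

theorem fi_unitAut_mul (g h : Gal(K/F)) (u : (𝓞 K)ˣ) :
    fi_unitAut (g * h) u = fi_unitAut g (fi_unitAut h u) :=
  Units.ext (by simp [mul_smul])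

@[simp] theorem fi_unitAut_one (u : (𝓞 K)ˣ) : fi_unitAut (1 : Gal(K/F)) u = u :=
  Units.ext (by simp)

/-- `θ u = u / σ u`. -/
noncomputable def fi_theta (σ : Gal(K/F)) : (𝓞 K)ˣ →* (𝓞 K)ˣ :=
  MonoidHom.id _ / (fi_unitAut σ).toMonoidHom

@[simp] theorem fi_theta_apply (σ : Gal(K/F)) (u : (𝓞 K)ˣ) :
    fi_theta σ u = u / fi_unitAut σ u := rfl

/-- `ν u = ∏_{i < p} σ^i u`. -/
noncomputable def fi_nu (σ : Gal(K/F)) (p : ℕ) : (𝓞 K)ˣ →* (𝓞 K)ˣ :=
  ∏ i ∈ Finset.range p, (fi_unitAut (σ ^ i)).toMonoidHom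

@[simp] theorem fi_nu_apply (σ : Gal(K/F)) (p : ℕ) (u : (𝓞 K)ˣ) :
    fi_nu σ p u = ∏ i ∈ Finset.range p, fi_unitAut (σ ^ i) u := by
  simp [fi_nu]

/-- The additive avatar of the Galois action on units. -/
noncomputable def fi_tauAdd (σ : Gal(K/F)) : Module.End ℤ (Additive (𝓞 K)ˣ) :=
  (MonoidHom.toAdditive (fi_unitAut σ).toMonoidHom).toIntLinearMap

@[simp] theorem fi_tauAdd_apply (σ : Gal(K/F)) (u : Additive (𝓞 K)ˣ) :
    fi_tauAdd σ u = Additive.ofMul (fi_unitAut σ u.toMul) := rfl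

theorem fi_tauAdd_pow (σ : Gal(K/F)) (i : ℕ) (u : Additive (𝓞 K)ˣ) :
    (fi_tauAdd σ ^ i) u = Additive.ofMul (fi_unitAut (σ ^ i) u.toMul) := by
  induction i with
  | zero => simp
  | succ i ih =>
    rw [pow_succ', Module.End.mul_apply, ih, pow_succ', fi_unitAut_mul]
    rfl

theorem fi_one_sub_tauAdd (σ : Gal(K/F)) :
    (1 - fi_tauAdd σ) = (MonoidHom.toAdditive (fi_theta σ)).toIntLinearMap := by
  ext u
  simp [sub_eq_add_neg, div_eq_mul_inv]

theorem fi_sum_tauAdd (σ : Gal(K/F)) (p : ℕ) :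
    (∑ i ∈ Finset.range p, fi_tauAdd σ ^ i) = (MonoidHom.toAdditive (fi_nu σ p)).toIntLinearMap := by
  ext u
  simp [LinearMap.sum_apply, fi_tauAdd_pow]

variable [IsGalois F K]

/-- A unit of `𝓞 K` fixed by the whole Galois group comes from a unit of `𝓞 F`. -/
theorem fi_unit_of_fixed (u : (𝓞 K)ˣ) (hu : ∀ g : Gal(K/F), fi_unitAut g u = u) :
    ∃ v : (𝓞 F)ˣ, Units.map (algebraMap (𝓞 F) (𝓞 K)).toMonoidHom v = u := by
  have h1 : ∀ g : Gal(K/F), g • (u : 𝓞 K) = u := fun g => by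
    have := congrArg Units.val (hu g)
    simpa using this
  have h2 : ∀ g : Gal(K/F), g • ((u⁻¹ : (𝓞 K)ˣ) : 𝓞 K) = ((u⁻¹ : (𝓞 K)ˣ) : 𝓞 K) := fun g => by
    have := congrArg Units.val (map_inv (fi_unitAut g) u)
    rw [hu g, fi_unitAut_coe] at this
    exact this
  obtain ⟨a, ha⟩ := Algebra.IsInvariant.isInvariant (A := 𝓞 F) (G := Gal(K/F)) (u : 𝓞 K) h1
  obtain ⟨b, hb⟩ := Algebra.IsInvariant.isInvariant (A := 𝓞 F) (G := Gal(K/F))
    ((u⁻¹ : (𝓞 K)ˣ) : 𝓞 K) h2
  have hinj : Function.Injective (algebraMap (𝓞 F) (𝓞 K)) :=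
    FaithfulSMul.algebraMap_injective _ _
  have hab : a * b = 1 := by
    apply hinj
    rw [map_mul, ha, hb, map_one, Units.mul_inv]
  refine ⟨⟨a, b, hab, by rw [mul_comm]; exact hab⟩, ?_⟩
  ext
  simp [ha]

/-- **Herbrand quotient of units** (inequality form) for a cyclic extension `K/F` of odd prime
degree `p` with generator `σ`: `p * [E_K^σ : ν E_K] ≤ [ker ν : θ E_K]`. -/
theorem fi_units_herbrand (p : ℕ) [hp : Fact p.Prime] (hp2 : p ≠ 2) (σ : Gal(K/F))
    (hσ : ∀ g : Gal(K/F), g ∈ Subgroup.zpowers σ) (hdeg : Module.finrank F K = p) :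
    (fi_nu σ p).range.relIndex (fi_theta σ).ker ≠ 0 ∧
      p * (fi_nu σ p).range.relIndex (fi_theta σ).ker
        ≤ (fi_theta σ).range.relIndex (fi_nu σ p).ker := by
  have hσp : σ ^ p = 1 := by
    rw [← hdeg, ← IsGalois.card_aut_eq_finrank]
    exact pow_card_eq_one'
  have hτp : fi_tauAdd σ ^ p = 1 := by
    ext u
    rw [fi_tauAdd_pow, hσp]
    simp
  -- torsion
  have htors : ∀ (x : Additive (𝓞 K)ˣ) (n : ℤ), n ≠ 0 → n • x = 0 →
      ((Units.torsionOrder K : ℕ) : ℤ) • x = 0 := by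
    intro x n hn hx
    have h1 : x.toMul ∈ Units.torsion K := by
      rw [Units.torsion, CommGroup.mem_torsion, isOfFinOrder_iff_zpow_eq_one]
      exact ⟨n, hn, by
        have := congrArg Additive.toMul hx
        simpa using this⟩
    rw [← Units.rootsOfUnity_eq_torsion, mem_rootsOfUnity] at h1
    rw [natCast_zsmul]
    apply Additive.toMul.injective
    simpa using h1
  -- rank of the fixed part
  have hker : finrank ℤ (LinearMap.ker (1 - fi_tauAdd σ)) ≤ Units.rank F := by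
    let j : Additive (𝓞 F)ˣ →ₗ[ℤ] Additive (𝓞 K)ˣ :=
      (MonoidHom.toAdditive (Units.map (algebraMap (𝓞 F) (𝓞 K)).toMonoidHom)).toIntLinearMap
    have hle : LinearMap.ker (1 - fi_tauAdd σ) ≤ LinearMap.range j := by
      intro x hx
      rw [LinearMap.mem_ker, LinearMap.sub_apply, Module.End.one_apply, sub_eq_zero] at hx
      have hfix : fi_unitAut σ x.toMul = x.toMul := by
        have := congrArg Additive.toMul hx
        simpa using this.symm
      have hall : ∀ g : Gal(K/F), fi_unitAut g x.toMul = x.toMul := by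
        intro g
        obtain ⟨n, rfl⟩ := Subgroup.mem_zpowers_iff.mp (hσ g)
        have hpow : ∀ i : ℕ, fi_unitAut (σ ^ i) x.toMul = x.toMul := by
          intro i
          induction i with
          | zero => simp
          | succ i ih => rw [pow_succ', fi_unitAut_mul, ih, hfix]
        have hinv : ∀ h : Gal(K/F), fi_unitAut h x.toMul = x.toMul →
            fi_unitAut h⁻¹ x.toMul = x.toMul := by
          intro h hh
          conv_lhs => rw [← hh]
          rw [← fi_unitAut_mul, inv_mul_cancel, fi_unitAut_one]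
        rcases Int.eq_nat_or_neg n with ⟨i, rfl | rfl⟩
        · rw [zpow_natCast]; exact hpow i
        · rw [zpow_neg, zpow_natCast]; exact hinv _ (hpow i)
      obtain ⟨v, hv⟩ := fi_unit_of_fixed x.toMul hall
      exact ⟨Additive.ofMul v, by simpa [j] using congrArg Additive.ofMul hv⟩
    calc finrank ℤ (LinearMap.ker (1 - fi_tauAdd σ)) ≤ finrank ℤ (LinearMap.range j) :=
          Submodule.finrank_mono hle
      _ ≤ finrank ℤ (Additive (𝓞 F)ˣ) := LinearMap.finrank_range_le j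
      _ = Units.rank F := Units.finrank_eq F
  -- rank of the whole unit group
  have hrank : p * Units.rank F + p ≤ finrank ℤ (Additive (𝓞 K)ˣ) + 1 := by
    have hodd : Odd (Module.finrank F K) := by
      rw [hdeg]; exact hp.out.odd_of_ne_two hp2
    have := IsUnramifiedAtInfinitePlaces_of_odd_finrank hodd
    have hcard := IsUnramifiedAtInfinitePlaces.card_infinitePlace F K
    rw [Units.finrank_eq, Units.rank, Units.rank, hcard, hdeg]
    have hpos : 0 < Fintype.card (InfinitePlace F) := Fintype.card_pos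
    have hp1 : 0 < p := hp.out.pos
    obtain ⟨c, hc⟩ : ∃ c, Fintype.card (InfinitePlace F) = c + 1 :=
      ⟨Fintype.card (InfinitePlace F) - 1, by omega⟩
    rw [hc]
    have : (c + 1) * p = p * c + p := by ring
    have h3 : 0 < (c + 1) * p := Nat.mul_pos (by omega) hp1
    simp only [Nat.add_sub_cancel]
    omega
  have hmain := fi_module_herbrand p (fi_tauAdd σ) hτp ((Units.torsionOrder K : ℕ) : ℤ)
    (by exact_mod_cast Units.torsionOrder_ne_zero K) htors (Units.rank F) hker hrank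
  rw [fi_one_sub_tauAdd, fi_sum_tauAdd] at hmain
  exact hmain

end Units

end Fermat.Agent.S14
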