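import Mathlib
import Fermat.Agent.S14.FirstIneq.Units

/-!
# S14 / first inequality block, part 4: glue around the unit theorem

* `fi_prod_range_eq_prod_univ`, `fi_prod_pow_eq_norm`: norms as products over powers of a generator.
* `fi_hilbert90`, `fi_hilbert90_int`: Hilbert 90 for cyclic extensions (universe polymorphic) and
  its integral form.
* `fi_unitIncl`, `fi_unitNorm`, `fi_theta_ker_eq`, `fi_nu_eq_unitIncl_unitNorm`,
  `fi_units_herbrand'`: the unit theorem in terms of the unit norm `(𝓞 K)ˣ → (𝓞 F)ˣ`.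
-/

namespace Fermat.Agent.S14

open NumberField Module

set_option linter.unusedSectionVars false

section Cyclic

/-- Products over a cyclic group enumerated by powers of a generator. -/
theorem fi_prod_range_eq_prod_univ {G : Type*} [Group G] [Fintype G] {M : Type*} [CommMonoid M]
    (σ : G) (hσ : ∀ g : G, g ∈ Subgroup.zpowers σ) (f : G → M) :
    ∏ i ∈ Finset.range (Nat.card G), f (σ ^ i) = ∏ g : G, f g := by
  classical
  have hord : orderOf σ = Nat.card G := orderOf_eq_card_of_forall_mem_zpowers hσ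
  have hinj : Set.InjOn (fun i : ℕ => σ ^ i) (Finset.range (Nat.card G)) := by
    intro i hi j hj hij
    apply pow_injOn_Iio_orderOf (x := σ)
    · simpa [hord] using hi
    · simpa [hord] using hj
    · exact hij
  have himage : (Finset.range (Nat.card G)).image (fun i : ℕ => σ ^ i) = Finset.univ := by
    apply Finset.eq_univ_of_card
    rw [Finset.card_image_of_injOn hinj, Finset.card_range, Nat.card_eq_fintype_card]
  rw [← himage, Finset.prod_image hinj]

end Cyclic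

section Hilbert90

variable {F K : Type*} [Field F] [Field K] [Algebra F K] [FiniteDimensional F K] [IsGalois F K]

/-- The norm as a product over powers of a generator of the Galois group. -/
theorem fi_prod_pow_eq_norm (σ : Gal(K/F)) (hσ : ∀ g : Gal(K/F), g ∈ Subgroup.zpowers σ)
    (x : K) : ∏ i ∈ Finset.range (Module.finrank F K), (σ ^ i) x
      = algebraMap F K (Algebra.norm F x) := by
  classical
  rw [Algebra.norm_eq_prod_automorphisms, ← IsGalois.card_aut_eq_finrank]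
  exact fi_prod_range_eq_prod_univ σ hσ (fun g => g x)

/-- **Hilbert 90** for a cyclic extension, universe polymorphic: an element of norm one is of the
form `y / σ y`. -/
theorem fi_hilbert90 (σ : Gal(K/F)) (hσ : ∀ g : Gal(K/F), g ∈ Subgroup.zpowers σ) {x : K}
    (hx : Algebra.norm F x = 1) : ∃ y : K, y ≠ 0 ∧ x * σ y = y := by
  classical
  set n := Module.finrank F K with hn
  have hprod : ∏ i ∈ Finset.range n, (σ ^ i) x = 1 := by
    rw [fi_prod_pow_eq_norm σ hσ, hx, map_one]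
  have hσn : σ ^ n = 1 := by
    rw [hn, ← IsGalois.card_aut_eq_finrank]
    exact pow_card_eq_one'
  have hord : orderOf σ = n := by
    rw [hn, ← IsGalois.card_aut_eq_finrank]
    exact orderOf_eq_card_of_forall_mem_zpowers hσ
  have hnpos : 0 < n := Module.finrank_pos
  let c : ℕ → K := fun i => ∏ j ∈ Finset.range i, (σ ^ j) x
  have hc0 : c 0 = 1 := by simp [c]
  have hcn : c n = 1 := hprod
  have hcs : ∀ i, x * σ (c i) = c (i + 1) := by
    intro i
    simp only [c, map_prod]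
    rw [Finset.prod_range_succ']
    simp only [pow_zero, AlgEquiv.one_apply]
    rw [mul_comm]
    congr 1
    refine Finset.prod_congr rfl fun j _ => ?_
    rw [pow_succ', AlgEquiv.mul_apply]
  -- independence of characters
  have hli : LinearIndependent K (fun i : Fin n => ((σ ^ (i : ℕ) : Gal(K/F)) : K → K)) := by
    have h1 : LinearIndependent K (fun f : K →* K => (f : K → K)) := linearIndependent_monoidHom K K
    have h2 : Function.Injective (fun i : Fin n => ((σ ^ (i : ℕ) : Gal(K/F)) : K →* K)) := by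
      intro i j hij
      have h3 : (σ ^ (i : ℕ) : Gal(K/F)) = σ ^ (j : ℕ) := by
        ext z
        exact DFunLike.congr_fun hij z
      apply Fin.ext
      apply pow_injOn_Iio_orderOf (x := σ)
      · simp [hord]
      · simp [hord]
      · exact h3
    exact h1.comp _ h2
  have hne : ∃ z : K, ∑ i : Fin n, c i * (σ ^ (i : ℕ)) z ≠ 0 := by
    by_contra hall
    push Not at hall
    have h0 : ∑ i : Fin n, c i • ((σ ^ (i : ℕ) : Gal(K/F)) : K → K) = 0 := by
      funext z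
      simpa using hall z
    have := (Fintype.linearIndependent_iff.mp hli) (fun i => c i) h0 ⟨0, hnpos⟩
    simp [hc0] at this
  obtain ⟨z, hz⟩ := hne
  refine ⟨∑ i : Fin n, c i * (σ ^ (i : ℕ)) z, hz, ?_⟩
  rw [Fin.sum_univ_eq_sum_range (fun i => c i * (σ ^ i) z) n] at hz ⊢
  rw [map_sum, Finset.mul_sum]
  have h1 : ∀ i ∈ Finset.range n, x * σ (c i * (σ ^ i) z) = c (i + 1) * (σ ^ (i + 1)) z := by
    intro i _
    rw [map_mul, ← mul_assoc, hcs, pow_succ', AlgEquiv.mul_apply]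
  rw [Finset.sum_congr rfl h1]
  have h2 := Finset.sum_range_succ' (fun i => c i * (σ ^ i) z) n
  have h3 := Finset.sum_range_succ (fun i => c i * (σ ^ i) z) n
  simp only [hcn, hσn, hc0, pow_zero] at h2 h3
  rw [h3] at h2
  exact (add_right_cancel h2).symm

end Hilbert90

section NF

variable {F K : Type*} [Field F] [NumberField F] [Field K] [NumberField K] [Algebra F K]
  [IsGalois F K]

theorem fi_coe_smul (g : Gal(K/F)) (x : 𝓞 K) : ((g • x : 𝓞 K) : K) = g (x : K) := rfl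

/-- The inclusion of unit groups `(𝓞 F)ˣ → (𝓞 K)ˣ`. -/
noncomputable def fi_unitIncl (F K : Type*) [Field F] [NumberField F] [Field K] [NumberField K]
    [Algebra F K] : (𝓞 F)ˣ →* (𝓞 K)ˣ :=
  Units.map (algebraMap (𝓞 F) (𝓞 K)).toMonoidHom

@[simp] theorem fi_unitIncl_coe (v : (𝓞 F)ˣ) :
    ((fi_unitIncl F K v : (𝓞 K)ˣ) : 𝓞 K) = algebraMap (𝓞 F) (𝓞 K) (v : 𝓞 F) := rfl

theorem fi_unitIncl_injective : Function.Injective (fi_unitIncl F K) := by
  intro a b hab
  apply Units.ext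
  apply FaithfulSMul.algebraMap_injective (𝓞 F) (𝓞 K)
  have := congrArg (fun u : (𝓞 K)ˣ => (u : 𝓞 K)) hab
  simpa using this

/-- The unit norm `(𝓞 K)ˣ → (𝓞 F)ˣ`. -/
noncomputable def fi_unitNorm (F K : Type*) [Field F] [NumberField F] [Field K] [NumberField K]
    [Algebra F K] : (𝓞 K)ˣ →* (𝓞 F)ˣ :=
  Units.map (Algebra.intNorm (𝓞 F) (𝓞 K))

@[simp] theorem fi_unitNorm_coe (u : (𝓞 K)ˣ) :
    ((fi_unitNorm F K u : (𝓞 F)ˣ) : 𝓞 F) = Algebra.intNorm (𝓞 F) (𝓞 K) (u : 𝓞 K) := rfl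

/-- `∏_{i<p} σ^i x` is the image of the integral norm. -/
theorem fi_prod_smul_eq_intNorm (σ : Gal(K/F)) (hσ : ∀ g : Gal(K/F), g ∈ Subgroup.zpowers σ)
    (x : 𝓞 K) : ∏ i ∈ Finset.range (Module.finrank F K), (σ ^ i) • x
      = algebraMap (𝓞 F) (𝓞 K) (Algebra.intNorm (𝓞 F) (𝓞 K) x) := by
  apply RingOfIntegers.ext
  have e1 : ((∏ i ∈ Finset.range (Module.finrank F K), (σ ^ i) • x : 𝓞 K) : K)
      = ∏ i ∈ Finset.range (Module.finrank F K), (σ ^ i) (x : K) :=
    (map_prod (algebraMap (𝓞 K) K) (fun i => (σ ^ i) • x) _).trans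
      (Finset.prod_congr rfl fun i _ => rfl)
  rw [e1, fi_prod_pow_eq_norm σ hσ, ← Algebra.algebraMap_intNorm (A := 𝓞 F) (B := 𝓞 K),
    ← IsScalarTower.algebraMap_apply]
  exact IsScalarTower.algebraMap_apply (𝓞 F) (𝓞 K) K _

theorem fi_nu_eq_unitIncl_unitNorm (σ : Gal(K/F)) (hσ : ∀ g : Gal(K/F), g ∈ Subgroup.zpowers σ)
    (u : (𝓞 K)ˣ) : fi_nu σ (Module.finrank F K) u = fi_unitIncl F K (fi_unitNorm F K u) := by
  apply Units.ext
  rw [fi_unitIncl_coe, fi_unitNorm_coe, ← fi_prod_smul_eq_intNorm σ hσ, fi_nu_apply,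
    Units.coe_prod]
  rfl

theorem fi_nu_ker_eq (σ : Gal(K/F)) (hσ : ∀ g : Gal(K/F), g ∈ Subgroup.zpowers σ) :
    (fi_nu σ (Module.finrank F K)).ker = (fi_unitNorm F K).ker := by
  ext u
  rw [MonoidHom.mem_ker, MonoidHom.mem_ker, fi_nu_eq_unitIncl_unitNorm σ hσ]
  constructor
  · intro h
    apply fi_unitIncl_injective (F := F) (K := K)
    rw [h, map_one]
  · intro h
    rw [h, map_one]

theorem fi_nu_range_eq (σ : Gal(K/F)) (hσ : ∀ g : Gal(K/F), g ∈ Subgroup.zpowers σ) :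
    (fi_nu σ (Module.finrank F K)).range = (fi_unitNorm F K).range.map (fi_unitIncl F K) := by
  ext u
  simp only [MonoidHom.mem_range, Subgroup.mem_map]
  constructor
  · rintro ⟨v, rfl⟩
    exact ⟨fi_unitNorm F K v, ⟨v, rfl⟩, (fi_nu_eq_unitIncl_unitNorm σ hσ v).symm⟩
  · rintro ⟨_, ⟨v, rfl⟩, rfl⟩
    exact ⟨v, fi_nu_eq_unitIncl_unitNorm σ hσ v⟩

/-- Membership in the kernel of the unit norm, in terms of the field norm. -/
theorem fi_mem_ker_unitNorm_iff (u : (𝓞 K)ˣ) :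
    u ∈ (fi_unitNorm F K).ker ↔ Algebra.norm F (((u : 𝓞 K) : K)) = 1 := by
  rw [MonoidHom.mem_ker, Units.ext_iff, fi_unitNorm_coe, Units.val_one,
    ← (FaithfulSMul.algebraMap_injective (𝓞 F) F).eq_iff, map_one,
    Algebra.algebraMap_intNorm (A := 𝓞 F) (K := F) (L := K) (B := 𝓞 K)]

theorem fi_unitAut_fixed_of_generator (σ : Gal(K/F)) (hσ : ∀ g : Gal(K/F), g ∈ Subgroup.zpowers σ)
    (u : (𝓞 K)ˣ) (hu : fi_unitAut σ u = u) (g : Gal(K/F)) : fi_unitAut g u = u := by
  obtain ⟨n, rfl⟩ := Subgroup.mem_zpowers_iff.mp (hσ g)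
  have hpow : ∀ i : ℕ, fi_unitAut (σ ^ i) u = u := by
    intro i
    induction i with
    | zero => simp
    | succ i ih => rw [pow_succ', fi_unitAut_mul, ih, hu]
  have hinv : ∀ h : Gal(K/F), fi_unitAut h u = u → fi_unitAut h⁻¹ u = u := by
    intro h hh
    conv_lhs => rw [← hh]
    rw [← fi_unitAut_mul, inv_mul_cancel, fi_unitAut_one]
  rcases Int.eq_nat_or_neg n with ⟨i, rfl | rfl⟩
  · rw [zpow_natCast]; exact hpow i
  · rw [zpow_neg, zpow_natCast]; exact hinv _ (hpow i)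

/-- The `σ`-fixed units are exactly the units of `𝓞 F`. -/
theorem fi_theta_ker_eq (σ : Gal(K/F)) (hσ : ∀ g : Gal(K/F), g ∈ Subgroup.zpowers σ) :
    (fi_theta σ).ker = (fi_unitIncl F K).range := by
  ext u
  rw [MonoidHom.mem_ker, fi_theta_apply, div_eq_one, MonoidHom.mem_range]
  constructor
  · intro h
    exact fi_unit_of_fixed u (fi_unitAut_fixed_of_generator σ hσ u h.symm)
  · rintro ⟨v, rfl⟩
    apply Units.ext
    rw [fi_unitAut_coe, fi_unitIncl_coe, smul_algebraMap]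

/-- **Herbrand quotient of units**, in terms of the unit norm `(𝓞 K)ˣ → (𝓞 F)ˣ`:
`p * [E_F : N E_K] ≤ [ker N : θ E_K]`. -/
theorem fi_units_herbrand' (p : ℕ) [hp : Fact p.Prime] (hp2 : p ≠ 2) (σ : Gal(K/F))
    (hσ : ∀ g : Gal(K/F), g ∈ Subgroup.zpowers σ) (hdeg : Module.finrank F K = p) :
    (fi_unitNorm F K).range.index ≠ 0 ∧
      p * (fi_unitNorm F K).range.index ≤ (fi_theta σ).range.relIndex (fi_unitNorm F K).ker := by
  have h := fi_units_herbrand p hp2 σ hσ hdeg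
  have e1 : (fi_nu σ p).range.relIndex (fi_theta σ).ker = (fi_unitNorm F K).range.index := by
    rw [← hdeg, fi_nu_range_eq σ hσ, fi_theta_ker_eq σ hσ, MonoidHom.range_eq_map (fi_unitIncl F K),
      Subgroup.relIndex_map_map_of_injective _ _ fi_unitIncl_injective,
      Subgroup.relIndex_top_right]
  have e2 : (fi_nu σ p).ker = (fi_unitNorm F K).ker := by
    rw [← hdeg, fi_nu_ker_eq σ hσ]
  rw [e1, e2] at h
  exact h

/-- Integral form of Hilbert 90: if `y, z ∈ 𝓞 K` are nonzero with the same norm to `F`, there is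
a nonzero `b ∈ 𝓞 K` with `y * σ b = z * b`. -/
theorem fi_hilbert90_int (σ : Gal(K/F)) (hσ : ∀ g : Gal(K/F), g ∈ Subgroup.zpowers σ)
    {y z : 𝓞 K} (hz : z ≠ 0)
    (h : Algebra.norm F (y : K) = Algebra.norm F (z : K)) :
    ∃ b : 𝓞 K, b ≠ 0 ∧ y * σ • b = z * b := by
  have hzK : (z : K) ≠ 0 := by exact_mod_cast hz
  have hnorm : Algebra.norm F ((y : K) / (z : K)) = 1 := by
    rw [div_eq_mul_inv, map_mul, Algebra.norm_inv, h, mul_inv_cancel₀]
    rw [Ne, Algebra.norm_eq_zero_iff]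
    exact hzK
  obtain ⟨β, hβ0, hβ⟩ := fi_hilbert90 σ hσ hnorm
  have halg : IsAlgebraic ℤ β :=
    (IsFractionRing.isAlgebraic_iff ℤ ℚ K).mpr (Algebra.IsAlgebraic.isAlgebraic β)
  obtain ⟨d, hd0, hd⟩ := halg.exists_integral_multiple
  have hβ' : (y : K) * σ β = (z : K) * β := by
    rw [div_mul_eq_mul_div, div_eq_iff hzK] at hβ
    rw [hβ, mul_comm]
  obtain ⟨b, hb⟩ : ∃ b : 𝓞 K, (b : K) = d • β := ⟨⟨d • β, hd⟩, rfl⟩
  refine ⟨b, ?_, ?_⟩
  · intro h0
    have h1 : (b : K) = 0 := by rw [h0]; rfl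
    rw [hb] at h1
    rcases smul_eq_zero.mp h1 with h2 | h2
    · exact hd0 h2
    · exact hβ0 h2
  · apply RingOfIntegers.ext
    have e1 : ((y * σ • b : 𝓞 K) : K) = (y : K) * σ (b : K) := map_mul _ _ _
    have e2 : ((z * b : 𝓞 K) : K) = (z : K) * (b : K) := map_mul _ _ _
    rw [e1, e2, hb, map_zsmul, mul_smul_comm, hβ', mul_smul_comm]

/-- Alias of `fi_units_herbrand'` in the shape used by `FirstIneq/Main.lean`. -/
theorem fi_unitNorm_herbrand (p : ℕ) [Fact p.Prime] (hp2 : p ≠ 2) (σ : Gal(K/F))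
    (hσ : ∀ g : Gal(K/F), g ∈ Subgroup.zpowers σ) (hdeg : Module.finrank F K = p) :
    (fi_unitNorm (F := F) (K := K)).range.index ≠ 0 ∧
      p * (fi_unitNorm (F := F) (K := K)).range.index
        ≤ (fi_theta σ).range.relIndex (fi_unitNorm (F := F) (K := K)).ker :=
  fi_units_herbrand' p hp2 σ hσ hdeg

/-- `δ u = σ u / u` (the inverse of `fi_theta`). -/
noncomputable def fi_delta (σ : Gal(K/F)) : (𝓞 K)ˣ →* (𝓞 K)ˣ :=
  (fi_unitAut σ).toMonoidHom / MonoidHom.id _

@[simp] theorem fi_delta_apply (σ : Gal(K/F)) (u : (𝓞 K)ˣ) :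
    fi_delta σ u = fi_unitAut σ u / u := rfl

theorem fi_delta_eq_theta_inv (σ : Gal(K/F)) (u : (𝓞 K)ˣ) : fi_delta σ u = (fi_theta σ u)⁻¹ := by
  simp

theorem fi_delta_range_eq (σ : Gal(K/F)) : (fi_delta σ).range = (fi_theta σ).range := by
  ext u
  simp only [MonoidHom.mem_range]
  constructor
  · rintro ⟨v, rfl⟩
    exact ⟨v⁻¹, by rw [map_inv, fi_delta_eq_theta_inv]⟩
  · rintro ⟨v, rfl⟩
    exact ⟨v⁻¹, by rw [map_inv, fi_delta_eq_theta_inv, inv_inv]⟩

theorem fi_delta_ker_eq (σ : Gal(K/F)) : (fi_delta σ).ker = (fi_theta σ).ker := by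
  ext u
  rw [MonoidHom.mem_ker, MonoidHom.mem_ker, fi_delta_eq_theta_inv, inv_eq_one]

end NF

end Fermat.Agent.S14
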