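import Mathlib
import Fermat.Agent.S14.FirstIneq.UnitsBridge
import Fermat.Agent.S14.FirstIneq.ClassAction
import Fermat.Agent.S14.FirstIneq.AmbigIdeal

/-!
# S14 / first inequality: ambiguous classes

`K/F` cyclic with generator `σ`.  An ideal class `c` of `K` fixed by `σ` has a representative `A`
with `(x) σA = (y) A`; then `N(y) = u N(x)` for a unit `u` of `𝓞 F`.  The class of `u` modulo norms
of units separates the cosets of the extended classes `j(Cl_F)` inside the fixed classes: this is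
`fi_amb_exists_of_L1` (given the "single class lemma" `hL1`).
-/

open NumberField
open scoped nonZeroDivisors Pointwise

namespace Fermat.Agent.S14

variable {F K : Type*} [Field F] [NumberField F] [Field K] [NumberField K] [Algebra F K]
  [IsGalois F K]

omit [IsGalois F K] in
/-- Iterating `(x) σA = (y) A`. -/
theorem fi_amb_iterate (σ : Gal(K/F)) (A : Ideal (𝓞 K)) (x y : 𝓞 K)
    (h : Ideal.span {x} * σ • A = Ideal.span {y} * A) (n : ℕ) :
    Ideal.span {∏ i ∈ Finset.range n, (σ ^ i) • x} * (σ ^ n) • A =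
      Ideal.span {∏ i ∈ Finset.range n, (σ ^ i) • y} * A := by
  induction n with
  | zero => simp
  | succ n ih =>
    rw [Finset.prod_range_succ, Finset.prod_range_succ]
    have h' : Ideal.span {(σ ^ n) • x} * (σ ^ (n + 1)) • A =
        Ideal.span {(σ ^ n) • y} * (σ ^ n) • A := by
      have := congrArg (fun I => (σ ^ n) • I) h
      simp only [smul_mul', fi_smul_span_singleton] at this
      rwa [← mul_smul, ← pow_succ] at this
    calc Ideal.span {(∏ i ∈ Finset.range n, (σ ^ i) • x) * (σ ^ n) • x} * (σ ^ (n + 1)) • A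
        = Ideal.span {∏ i ∈ Finset.range n, (σ ^ i) • x} *
            (Ideal.span {(σ ^ n) • x} * (σ ^ (n + 1)) • A) := by
          rw [← Ideal.span_singleton_mul_span_singleton, mul_assoc]
      _ = Ideal.span {(σ ^ n) • y} *
            (Ideal.span {∏ i ∈ Finset.range n, (σ ^ i) • x} * (σ ^ n) • A) := by
          rw [h']; ring
      _ = Ideal.span {(∏ i ∈ Finset.range n, (σ ^ i) • y) * (σ ^ n) • y} * A := by
          rw [ih, ← Ideal.span_singleton_mul_span_singleton]; ring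

/-- (L2) the unit attached to the data `(x) σA = (y) A`. -/
theorem fi_amb_exists_unit (σ : Gal(K/F)) (hσ : ∀ g : Gal(K/F), g ∈ Subgroup.zpowers σ)
    (A : Ideal (𝓞 K)) (hA : A ≠ ⊥) (x y : 𝓞 K)
    (h : Ideal.span {x} * σ • A = Ideal.span {y} * A) :
    ∃ u : (𝓞 F)ˣ, Algebra.intNorm (𝓞 F) (𝓞 K) y = u * Algebra.intNorm (𝓞 F) (𝓞 K) x := by
  have hpow : σ ^ Module.finrank F K = 1 := by
    rw [← IsGalois.card_aut_eq_finrank F K]
    exact pow_card_eq_one'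
  have h1 := fi_amb_iterate σ A x y h (Module.finrank F K)
  rw [hpow, one_smul, fi_prod_smul_eq_intNorm σ hσ x, fi_prod_smul_eq_intNorm σ hσ y] at h1
  have h2 : Ideal.span {algebraMap (𝓞 F) (𝓞 K) (Algebra.intNorm (𝓞 F) (𝓞 K) x)} =
      Ideal.span {algebraMap (𝓞 F) (𝓞 K) (Algebra.intNorm (𝓞 F) (𝓞 K) y)} :=
    mul_right_cancel₀ hA h1
  have h3 : (Ideal.span {Algebra.intNorm (𝓞 F) (𝓞 K) x}).map (algebraMap (𝓞 F) (𝓞 K)) =
      (Ideal.span {Algebra.intNorm (𝓞 F) (𝓞 K) y}).map (algebraMap (𝓞 F) (𝓞 K)) := by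
    rw [Ideal.map_span, Ideal.map_span, Set.image_singleton, Set.image_singleton]
    exact h2
  have h4 := fi_ai_map_injective (K := K) h3
  obtain ⟨u, hu⟩ := Ideal.span_singleton_eq_span_singleton.mp h4
  exact ⟨u, by rw [← hu, mul_comm]⟩

/-- The data attached to a fixed class. -/
theorem fi_amb_exists_data (σ : Gal(K/F)) (hσ : ∀ g : Gal(K/F), g ∈ Subgroup.zpowers σ)
    (c : ClassGroup (𝓞 K)) (hc : fi_clAct σ c = c) :
    ∃ (A : (Ideal (𝓞 K))⁰) (x y : 𝓞 K) (u : (𝓞 F)ˣ), ClassGroup.mk0 A = c ∧ x ≠ 0 ∧ y ≠ 0 ∧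
      Ideal.span {x} * σ • (A : Ideal (𝓞 K)) = Ideal.span {y} * (A : Ideal (𝓞 K)) ∧
      Algebra.intNorm (𝓞 F) (𝓞 K) y = u * Algebra.intNorm (𝓞 F) (𝓞 K) x := by
  obtain ⟨A, rfl⟩ := ClassGroup.mk0_surjective c
  obtain ⟨x, y, hx, hy, h⟩ := (fi_clAct_mk0_eq_iff σ A).mp hc
  obtain ⟨u, hu⟩ := fi_amb_exists_unit σ hσ A.1 (mem_nonZeroDivisors_iff_ne_zero.mp A.2) x y h
  exact ⟨A, x, y, u, rfl, hx, hy, h, hu⟩

omit [IsGalois F K] in
/-- field-norm version of an `intNorm` relation -/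
theorem fi_amb_norm_eq {x y : 𝓞 K} {u : (𝓞 F)ˣ}
    (h : Algebra.intNorm (𝓞 F) (𝓞 K) y = u * Algebra.intNorm (𝓞 F) (𝓞 K) x) :
    Algebra.norm F (y : K) = algebraMap (𝓞 F) F (u : 𝓞 F) * Algebra.norm F (x : K) := by
  rw [← Algebra.algebraMap_intNorm (A := 𝓞 F) (K := F) (L := K) (B := 𝓞 K),
    ← Algebra.algebraMap_intNorm (A := 𝓞 F) (K := F) (L := K) (B := 𝓞 K), h, map_mul]

/-- (L3) separation. -/
theorem fi_amb_sep (σ : Gal(K/F))
    (hL1 : ∀ (A : (Ideal (𝓞 K))⁰) (x y : 𝓞 K), x ≠ 0 → y ≠ 0 →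
      Ideal.span {x} * σ • (A : Ideal (𝓞 K)) = Ideal.span {y} * (A : Ideal (𝓞 K)) →
      ∀ ε : (𝓞 K)ˣ, Algebra.norm F (y : K) =
        Algebra.norm F (x : K) * Algebra.norm F (((ε : 𝓞 K)) : K) →
      ClassGroup.mk0 A ∈ (fi_clExt (F := F) (K := K)).range)
    (A B : (Ideal (𝓞 K))⁰) (x y x' y' : 𝓞 K) (u u' : (𝓞 F)ˣ)
    (hx : x ≠ 0) (hy : y ≠ 0) (hx' : x' ≠ 0) (hy' : y' ≠ 0)
    (hA : Ideal.span {x} * σ • (A : Ideal (𝓞 K)) = Ideal.span {y} * (A : Ideal (𝓞 K)))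
    (hB : Ideal.span {x'} * σ • (B : Ideal (𝓞 K)) = Ideal.span {y'} * (B : Ideal (𝓞 K)))
    (hu : Algebra.intNorm (𝓞 F) (𝓞 K) y = u * Algebra.intNorm (𝓞 F) (𝓞 K) x)
    (hu' : Algebra.intNorm (𝓞 F) (𝓞 K) y' = u' * Algebra.intNorm (𝓞 F) (𝓞 K) x')
    (ε : (𝓞 K)ˣ) (hε : fi_unitNorm F K ε = u⁻¹ * u') :
    (ClassGroup.mk0 A)⁻¹ * ClassGroup.mk0 B ∈ (fi_clExt (F := F) (K := K)).range := by
  classical
  have hA0 : (A : Ideal (𝓞 K)) ≠ ⊥ := mem_nonZeroDivisors_iff_ne_zero.mp A.2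
  -- an inverse ideal
  obtain ⟨d, hdA, hd0⟩ := Submodule.exists_mem_ne_zero_of_ne_bot hA0
  have hle : Ideal.span {d} ≤ (A : Ideal (𝓞 K)) := (Ideal.span_singleton_le_iff_mem _).mpr hdA
  obtain ⟨A', hA'⟩ := Ideal.dvd_iff_le.mpr hle
  have hspan0 : Ideal.span {d} ≠ (⊥ : Ideal (𝓞 K)) := by
    rwa [Ne, Ideal.span_singleton_eq_bot]
  have hA'0 : A' ≠ ⊥ := by
    rintro rfl
    apply hspan0
    rw [hA', Ideal.mul_bot]
  let As : (Ideal (𝓞 K))⁰ := ⟨A', mem_nonZeroDivisors_iff_ne_zero.mpr hA'0⟩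
  have hinv : (ClassGroup.mk0 A)⁻¹ = ClassGroup.mk0 As := by
    rw [inv_eq_iff_mul_eq_one, ← map_mul, ClassGroup.mk0_eq_one_iff]
    change ((A : Ideal (𝓞 K)) * A').IsPrincipal
    rw [← hA']
    exact ⟨⟨d, rfl⟩⟩
  rw [hinv, ← map_mul]
  -- the data of `As * B`
  have h4 : Ideal.span {σ • d} = σ • (A : Ideal (𝓞 K)) * σ • A' := by
    rw [← fi_smul_span_singleton, hA', smul_mul']
  have hdata : Ideal.span {y * d * x'} * σ • ((As * B : (Ideal (𝓞 K))⁰) : Ideal (𝓞 K)) =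
      Ideal.span {x * σ • d * y'} * ((As * B : (Ideal (𝓞 K))⁰) : Ideal (𝓞 K)) := by
    change Ideal.span {y * d * x'} * σ • (A' * (B : Ideal (𝓞 K))) =
      Ideal.span {x * σ • d * y'} * (A' * (B : Ideal (𝓞 K)))
    rw [smul_mul']
    calc Ideal.span {y * d * x'} * (σ • A' * σ • (B : Ideal (𝓞 K)))
        = Ideal.span {y} * Ideal.span {d} * Ideal.span {x'} *
            (σ • A' * σ • (B : Ideal (𝓞 K))) := by
          rw [Ideal.span_singleton_mul_span_singleton, Ideal.span_singleton_mul_span_singleton]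
      _ = (Ideal.span {y} * (A : Ideal (𝓞 K))) * (Ideal.span {x'} * σ • (B : Ideal (𝓞 K))) *
            (A' * σ • A') := by
          rw [hA']; ring
      _ = (Ideal.span {x} * σ • (A : Ideal (𝓞 K))) * (Ideal.span {y'} * (B : Ideal (𝓞 K))) *
            (A' * σ • A') := by
          rw [hA, hB]
      _ = Ideal.span {x} * (σ • (A : Ideal (𝓞 K)) * σ • A') * Ideal.span {y'} *
            (A' * (B : Ideal (𝓞 K))) := by
          ring
      _ = Ideal.span {x * σ • d * y'} * (A' * (B : Ideal (𝓞 K))) := by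
          rw [← h4, Ideal.span_singleton_mul_span_singleton,
            Ideal.span_singleton_mul_span_singleton]
  have hσd0 : σ • d ≠ 0 := by
    intro h0
    apply hd0
    have := congrArg (fun z => σ⁻¹ • z) h0
    simpa using this
  refine hL1 (As * B) (y * d * x') (x * σ • d * y') (mul_ne_zero (mul_ne_zero hy hd0) hx')
    (mul_ne_zero (mul_ne_zero hx hσd0) hy') hdata ε ?_
  -- the norm computation
  have n1 := fi_amb_norm_eq hu
  have n2 := fi_amb_norm_eq hu'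
  have n3 : Algebra.norm F (((ε : 𝓞 K)) : K) =
      algebraMap (𝓞 F) F ((u⁻¹ * u' : (𝓞 F)ˣ) : 𝓞 F) := by
    rw [← hε, fi_unitNorm_coe,
      Algebra.algebraMap_intNorm (A := 𝓞 F) (K := F) (L := K) (B := 𝓞 K)]
  have n4 : Algebra.norm F ((σ • d : 𝓞 K) : K) = Algebra.norm F (d : K) := by
    rw [fi_coe_smul]
    exact Algebra.norm_eq_of_algEquiv σ _
  have hmul : ∀ a b : 𝓞 K, ((a * b : 𝓞 K) : K) = (a : K) * (b : K) := fun a b => map_mul _ a b
  rw [hmul, hmul, hmul, hmul, map_mul, map_mul, map_mul, map_mul, n4, n1, n2, n3]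
  have hunit : algebraMap (𝓞 F) F (u : 𝓞 F) * algebraMap (𝓞 F) F ((u⁻¹ * u' : (𝓞 F)ˣ) : 𝓞 F) =
      algebraMap (𝓞 F) F (u' : 𝓞 F) := by
    rw [← map_mul, ← Units.val_mul, mul_inv_cancel_left]
  rw [← hunit]
  ring

/-- **(PHI)**, given the single class lemma (L1). -/
theorem fi_amb_exists_of_L1 (σ : Gal(K/F)) (hσ : ∀ g : Gal(K/F), g ∈ Subgroup.zpowers σ)
    (hL1 : ∀ (A : (Ideal (𝓞 K))⁰) (x y : 𝓞 K), x ≠ 0 → y ≠ 0 →
      Ideal.span {x} * σ • (A : Ideal (𝓞 K)) = Ideal.span {y} * (A : Ideal (𝓞 K)) →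
      ∀ ε : (𝓞 K)ˣ, Algebra.norm F (y : K) =
        Algebra.norm F (x : K) * Algebra.norm F (((ε : 𝓞 K)) : K) →
      ClassGroup.mk0 A ∈ (fi_clExt (F := F) (K := K)).range) :
    ∃ φ : {c : ClassGroup (𝓞 K) // fi_clAct σ c = c} → (𝓞 F)ˣ ⧸ (fi_unitNorm F K).range,
      ∀ a b, φ a = φ b →
        (a : ClassGroup (𝓞 K))⁻¹ * (b : ClassGroup (𝓞 K)) ∈
          (fi_clExt (F := F) (K := K)).range := by
  classical
  choose A x y u hAc hx hy hdata hu using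
    fun c : {c : ClassGroup (𝓞 K) // fi_clAct σ c = c} => fi_amb_exists_data σ hσ c.1 c.2
  refine ⟨fun c => QuotientGroup.mk (u c), ?_⟩
  intro a b hab
  have hmem : (u a)⁻¹ * u b ∈ (fi_unitNorm F K).range := QuotientGroup.eq.mp hab
  obtain ⟨ε, hε⟩ := hmem
  have := fi_amb_sep σ hL1 (A a) (A b) (x a) (y a) (x b) (y b) (u a) (u b) (hx a) (hy a) (hx b)
    (hy b) (hdata a) (hdata b) (hu a) (hu b) ε hε
  rwa [hAc a, hAc b] at this

end Fermat.Agent.S14
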