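import Mathlib
import Fermat.Agent.S14.FirstIneq.UnitsBridge
import Fermat.Agent.S14.FirstIneq.AmbigIdeal
import Fermat.Agent.S14.FirstIneq.ClassAction

/-!
# S14 / first inequality block, (L1): ambiguous classes with norm-compatible data are extended

If `(x) τA = (y) A` and `N(y) = N(x) N(ε)` for a unit `ε`, then `A` is, up to principal ideals,
the extension of an ideal of `𝓞 F`.
-/

set_option autoImplicit false
set_option linter.unusedSectionVars false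

namespace Fermat.Agent.S14

open NumberField nonZeroDivisors

open scoped Pointwise

section L1

variable {F K : Type*} [Field F] [NumberField F] [Field K] [NumberField K] [Algebra F K]
  [IsGalois F K]

/-- (L1) -/
theorem fi_ac_one {τ : Gal(K/F)} (hτ : ∀ σ : Gal(K/F), σ ∈ Subgroup.zpowers τ)
    (hur : ∀ P : Ideal (𝓞 K), P.IsPrime → P ≠ ⊥ → P.inertia Gal(K/F) = ⊥)
    {A : Ideal (𝓞 K)} (hA : A ≠ ⊥) {x y : 𝓞 K} (hx : x ≠ 0)
    (hxy : Ideal.span {x} * τ • A = Ideal.span {y} * A) (ε : (𝓞 K)ˣ)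
    (hN : Algebra.norm F (y : K) = Algebra.norm F (x : K) * Algebra.norm F ((ε : 𝓞 K) : K)) :
    ∃ a : Ideal (𝓞 F), a ≠ ⊥ ∧ ∃ γ δ : 𝓞 K, γ ≠ 0 ∧ δ ≠ 0 ∧
      Ideal.span {γ} * A = Ideal.span {δ} * a.map (algebraMap (𝓞 F) (𝓞 K)) := by
  have hz : x * (ε : 𝓞 K) ≠ 0 := mul_ne_zero hx ε.ne_zero
  have hN' : Algebra.norm F (y : K) = Algebra.norm F ((x * (ε : 𝓞 K) : 𝓞 K) : K) := by
    rw [hN, ← map_mul]
    rfl
  obtain ⟨b, hb0, hb⟩ := fi_hilbert90_int τ hτ hz hN'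
  -- `B = (b) A` is `τ`-invariant
  set B : Ideal (𝓞 K) := Ideal.span {b} * A with hB
  have hB0 : B ≠ ⊥ := by
    rw [hB]
    refine mul_ne_zero ?_ hA
    rwa [Ne, Ideal.zero_eq_bot, Ideal.span_singleton_eq_bot]
  have hspanx : Ideal.span {x} ≠ (0 : Ideal (𝓞 K)) := by
    rwa [Ne, Ideal.zero_eq_bot, Ideal.span_singleton_eq_bot]
  have hε : Ideal.span {(ε : 𝓞 K)} = (⊤ : Ideal (𝓞 K)) :=
    Ideal.span_singleton_eq_top.mpr ε.isUnit
  have hτB : τ • B = B := by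
    apply mul_left_cancel₀ hspanx
    calc Ideal.span {x} * τ • B
        = Ideal.span {τ • b} * (Ideal.span {x} * τ • A) := by
          rw [hB, smul_mul', fi_smul_span_singleton]
          ring
      _ = Ideal.span {y * τ • b} * A := by
          rw [hxy, ← mul_assoc, Ideal.span_singleton_mul_span_singleton, mul_comm y]
      _ = Ideal.span {x * (ε : 𝓞 K) * b} * A := by rw [hb]
      _ = Ideal.span {x} * B := by
          rw [hB, ← Ideal.span_singleton_mul_span_singleton,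
            ← Ideal.span_singleton_mul_span_singleton, hε, Ideal.mul_top, mul_assoc]
  obtain ⟨a, ha0, ha⟩ := fi_ai_exists_map_eq hur B hB0 (fi_ai_smul_eq_of_generator hτ hτB)
  refine ⟨a, ha0, b, 1, hb0, one_ne_zero, ?_⟩
  rw [← hB, ha, Ideal.span_singleton_one, Ideal.top_mul]

/-- (L1), class group form: the class of `A` is extended from `F`. -/
theorem fi_ac_one_mem_range {τ : Gal(K/F)} (hτ : ∀ σ : Gal(K/F), σ ∈ Subgroup.zpowers τ)
    (hur : ∀ P : Ideal (𝓞 K), P.IsPrime → P ≠ ⊥ → P.inertia Gal(K/F) = ⊥)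
    (A : (Ideal (𝓞 K))⁰) {x y : 𝓞 K} (hx : x ≠ 0)
    (hxy : Ideal.span {x} * τ • (A : Ideal (𝓞 K)) = Ideal.span {y} * (A : Ideal (𝓞 K)))
    (ε : (𝓞 K)ˣ)
    (hN : Algebra.norm F (y : K) = Algebra.norm F (x : K) * Algebra.norm F ((ε : 𝓞 K) : K)) :
    ClassGroup.mk0 A ∈ (fi_clExt (F := F) (K := K)).range := by
  obtain ⟨a, ha0, γ, δ, hγ, hδ, h⟩ :=
    fi_ac_one hτ hur (mem_nonZeroDivisors_iff_ne_zero.mp A.2) hx hxy ε hN
  have ha : a ∈ (Ideal (𝓞 F))⁰ := mem_nonZeroDivisors_iff_ne_zero.mpr ha0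
  refine ⟨ClassGroup.mk0 ⟨a, ha⟩, ?_⟩
  rw [fi_clExt_mk0, eq_comm, ClassGroup.mk0_eq_mk0_iff]
  exact ⟨γ, δ, hγ, hδ, h⟩

/-- (L1) in the exact corollary shape consumed by `AmbigClass.lean`. -/
theorem fi_ac_mk0_mem_range (σ : Gal(K/F)) (hσ : ∀ g : Gal(K/F), g ∈ Subgroup.zpowers σ)
    (hur : ∀ P : Ideal (𝓞 K), P.IsPrime → P ≠ ⊥ → P.inertia Gal(K/F) = ⊥) :
    ∀ (A : (Ideal (𝓞 K))⁰) (x y : 𝓞 K), x ≠ 0 → y ≠ 0 →
      Ideal.span {x} * σ • A.1 = Ideal.span {y} * A.1 →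
      ∀ ε : (𝓞 K)ˣ, Algebra.norm F (y : K) = Algebra.norm F (x : K) *
        Algebra.norm F ((ε : 𝓞 K) : K) →
      ClassGroup.mk0 A ∈ (fi_clExt (F := F) (K := K)).range :=
  fun A _ _ hx _ hxy ε hN => fi_ac_one_mem_range hσ hur A hx hxy ε hN

end L1

end Fermat.Agent.S14
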