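import Mathlib
import Fermat.Agent.S14.FirstIneq.Herbrand

/-!
# S14 / first inequality block: the final counting (pure group theory)

`fi_asm_card_range_le_fixed`: for an endomorphism `t` of a finite commutative group `M` and a
homomorphism `N` with `N ∘ t = N`, the image of `N` has at most as many elements as `t` has
fixed points.

`fi_asm_main`: the counting argument of the first inequality.  In the application
`CF = Cl_F`, `CK = Cl_K`, `j` = extension of ideals, `Nm` = norm, `t` = action of a generator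
`τ` of `Gal(K/F)`, `EK = (𝓞 K)ˣ`, `EF = (𝓞 F)ˣ`, `ν` = norm on units, `δ ε = τ ε / ε`.
The conclusion is `p * |Nm(Cl_K)| ≤ |Cl_F|`.
-/

open NumberField
open scoped nonZeroDivisors

namespace Fermat.Agent.S14

/-- If `N ∘ t = N` on a finite commutative group, then `|im N| ≤ |fixed points of t|`. -/
theorem fi_asm_card_range_le_fixed {M C : Type*} [CommGroup M] [Finite M] [CommGroup C]
    (t : M →* M) (N : M →* C) (h : ∀ x, N (t x) = N x) :
    Nat.card N.range ≤ Nat.card {x : M // t x = x} := by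
  classical
  -- `d x = t x / x`; its kernel is the set of fixed points, its range is killed by `N`.
  let d : M →* M :=
    { toFun := fun x => t x / x
      map_one' := by simp
      map_mul' := fun x y => by rw [map_mul, mul_div_mul_comm] }
  have hdker : ∀ x, x ∈ d.ker ↔ t x = x := by
    intro x
    rw [MonoidHom.mem_ker]
    change t x / x = 1 ↔ _
    rw [div_eq_one]
  have hle : d.range ≤ N.ker := by
    rintro _ ⟨x, rfl⟩
    rw [MonoidHom.mem_ker]
    change N (t x / x) = 1
    rw [map_div, h, div_self']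
  -- card M = card ker d * card range d, card M = card ker N * card range N
  have h1 : Nat.card d.ker * Nat.card d.range = Nat.card M := by
    have := Subgroup.card_eq_card_quotient_mul_card_subgroup d.ker
    rw [this, mul_comm]
    congr 1
    exact Nat.card_congr (QuotientGroup.quotientKerEquivRange d).toEquiv |>.symm
  have h2 : Nat.card N.ker * Nat.card N.range = Nat.card M := by
    have := Subgroup.card_eq_card_quotient_mul_card_subgroup N.ker
    rw [this, mul_comm]
    congr 1
    exact Nat.card_congr (QuotientGroup.quotientKerEquivRange N).toEquiv |>.symm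
  have h3 : Nat.card d.range ≤ Nat.card N.ker := Subgroup.card_le_of_le hle
  have h4 : Nat.card d.ker = Nat.card {x : M // t x = x} :=
    Nat.card_congr (Equiv.subtypeEquivRight hdker)
  rw [← h4]
  have hpos : 0 < Nat.card d.range := Nat.card_pos
  -- card range N * card range d ≤ card range N * card ker N = card M = card ker d * card range d
  have : Nat.card N.range * Nat.card d.range ≤ Nat.card d.ker * Nat.card d.range := by
    calc Nat.card N.range * Nat.card d.range
        ≤ Nat.card N.range * Nat.card N.ker := Nat.mul_le_mul_left _ h3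
      _ = Nat.card M := by rw [mul_comm, h2]
      _ = Nat.card d.ker * Nat.card d.range := h1.symm
  exact Nat.le_of_mul_le_mul_right this hpos

/-- **Counting argument of the first inequality.** -/
theorem fi_asm_main {CF CK EF EK : Type*} [CommGroup CF] [Finite CF] [CommGroup CK] [Finite CK]
    [CommGroup EF] [CommGroup EK] (p : ℕ)
    (j : CF →* CK) (Nm : CK →* CF) (t : CK →* CK) (hNt : ∀ c, Nm (t c) = Nm c)
    (ν : EK →* EF) (δ : EK →* EK)
    (hHU : ν.range.index ≠ 0 ∧ p * ν.range.index ≤ δ.range.relIndex ν.ker)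
    (ψ : ν.ker → j.ker)
    (hψ : ∀ a b : ν.ker, ψ a = ψ b → (a : EK)⁻¹ * (b : EK) ∈ δ.range)
    (φ : {c : CK // t c = c} → EF ⧸ ν.range)
    (hφ : ∀ a b : {c : CK // t c = c}, φ a = φ b → (a : CK)⁻¹ * (b : CK) ∈ j.range) :
    p * Nat.card Nm.range ≤ Nat.card CF := by
  classical
  -- the subgroup of fixed points
  let T : Subgroup CK :=
    { carrier := {c | t c = c}
      one_mem' := map_one t
      mul_mem' := fun {a b} ha hb => by
        change t (a * b) = a * b
        rw [map_mul, ha, hb]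
      inv_mem' := fun {a} ha => by
        change t a⁻¹ = a⁻¹
        rw [map_inv, ha] }
  have hTcard : Nat.card T = Nat.card {c : CK // t c = c} := rfl
  -- (1) |im Nm| ≤ |T|
  have h1 : Nat.card Nm.range ≤ Nat.card T := by
    rw [hTcard]
    exact fi_asm_card_range_le_fixed t Nm hNt
  -- (2) [T : j.range ⊓ T] ≤ [EF : ν.range]
  have : Finite (EF ⧸ ν.range) := by
    apply Nat.finite_of_card_ne_zero
    rw [← Subgroup.index_eq_card]
    exact hHU.1
  have h2 := fi_relIndex_le_card j.range T (S := EF ⧸ ν.range) (fun a => φ ⟨a.1, a.2⟩)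
    (fun a b hab => hφ ⟨a.1, a.2⟩ ⟨b.1, b.2⟩ hab)
  rw [← Subgroup.index_eq_card] at h2
  -- |T| = [T : j.range ⊓ T] * |j.range ⊓ T| ≤ [EF : ν.range] * |j.range|
  have h3 : Nat.card T ≤ ν.range.index * Nat.card j.range := by
    have e1 : Nat.card T = (j.range.subgroupOf T).index * Nat.card (j.range.subgroupOf T) := by
      rw [mul_comm]
      exact (Subgroup.card_mul_index _).symm
    have e2 : Nat.card (j.range.subgroupOf T) ≤ Nat.card j.range := by
      have hinj : Function.Injective
          (fun x : j.range.subgroupOf T => (⟨(x : T), x.2⟩ : j.range)) := by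
        intro x y hxy
        simp only [Subtype.mk.injEq] at hxy
        exact Subtype.ext (Subtype.ext hxy)
      exact Nat.card_le_card_of_injective _ hinj
    rw [e1]
    exact Nat.mul_le_mul h2.2 e2
  -- (3) |CF| = |ker j| * |im j|
  have h4 : Nat.card j.ker * Nat.card j.range = Nat.card CF := by
    have := Subgroup.card_eq_card_quotient_mul_card_subgroup j.ker
    rw [this, mul_comm]
    congr 1
    exact Nat.card_congr (QuotientGroup.quotientKerEquivRange j).toEquiv |>.symm
  -- (4) [ker ν : im δ ⊓ ker ν] ≤ |ker j|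
  have h5 := fi_relIndex_le_card δ.range ν.ker (S := j.ker) ψ hψ
  have hpos : 0 < Nat.card j.ker := Nat.card_pos
  -- combine
  have key : p * Nat.card Nm.range * Nat.card j.ker ≤ Nat.card CF * Nat.card j.ker := by
    calc p * Nat.card Nm.range * Nat.card j.ker
        ≤ p * (ν.range.index * Nat.card j.range) * Nat.card j.ker :=
          Nat.mul_le_mul_right _ (Nat.mul_le_mul_left _ (h1.trans h3))
      _ = (p * ν.range.index) * (Nat.card j.ker * Nat.card j.range) := by ring
      _ ≤ δ.range.relIndex ν.ker * (Nat.card j.ker * Nat.card j.range) :=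
          Nat.mul_le_mul_right _ hHU.2
      _ ≤ Nat.card j.ker * (Nat.card j.ker * Nat.card j.range) :=
          Nat.mul_le_mul_right _ h5.2
      _ = Nat.card CF * Nat.card j.ker := by rw [h4]; ring
  exact Nat.le_of_mul_le_mul_right key hpos

/-- Consequence: if `2 ≤ p` the map `Nm` is not surjective. -/
theorem fi_asm_range_ne_top {CF CK : Type*} [CommGroup CF] [Finite CF] [CommGroup CK]
    (p : ℕ) (hp : 2 ≤ p) (Nm : CK →* CF) (h : p * Nat.card Nm.range ≤ Nat.card CF) :
    Nm.range ≠ ⊤ := by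
  intro htop
  rw [htop, Subgroup.card_top] at h
  have hpos : 0 < Nat.card CF := Nat.card_pos
  nlinarith


/-- Conversion to the export shape of the first inequality: if the norm map on class groups
is not surjective, then some nonzero ideal `𝔟` of `𝓞 F` is not of the form
`(principal) * relNorm 𝔄` up to principal ideals. -/
theorem fi_asm_first_inequality_of_range_ne_top {F K : Type*} [Field F] [NumberField F]
    [Field K] [NumberField K] [Algebra F K]
    (Nm : ClassGroup (𝓞 K) →* ClassGroup (𝓞 F))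
    (hNm : ∀ (A : (Ideal (𝓞 K))⁰) (hA : Ideal.relNorm (𝓞 F) A.1 ∈ (Ideal (𝓞 F))⁰),
      Nm (ClassGroup.mk0 A) = ClassGroup.mk0 ⟨Ideal.relNorm (𝓞 F) A.1, hA⟩)
    (hne : Nm.range ≠ ⊤) :
    ∃ 𝔟 : Ideal (𝓞 F), 𝔟 ≠ ⊥ ∧ ∀ (α β : 𝓞 F) (𝔄 : Ideal (𝓞 K)), α ≠ 0 → β ≠ 0 → 𝔄 ≠ ⊥ →
      Ideal.span {α} * 𝔟 ≠ Ideal.span {β} * Ideal.relNorm (𝓞 F) 𝔄 := by
  classical
  obtain ⟨c, hc⟩ : ∃ c : ClassGroup (𝓞 F), c ∉ Nm.range := by
    by_contra hcon
    exact hne (eq_top_iff.mpr fun x _ => by_contra fun hx => hcon ⟨x, hx⟩)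
  obtain ⟨B, rfl⟩ := ClassGroup.mk0_surjective c
  refine ⟨B.1, mem_nonZeroDivisors_iff_ne_zero.mp B.2, ?_⟩
  intro α β 𝔄 hα hβ h𝔄 heq
  apply hc
  have h𝔄' : 𝔄 ∈ (Ideal (𝓞 K))⁰ := mem_nonZeroDivisors_iff_ne_zero.mpr h𝔄
  have hN0 : Ideal.relNorm (𝓞 F) 𝔄 ≠ ⊥ := by
    rw [Ne, Ideal.relNorm_eq_bot_iff]
    exact h𝔄
  have hN : Ideal.relNorm (𝓞 F) 𝔄 ∈ (Ideal (𝓞 F))⁰ := mem_nonZeroDivisors_iff_ne_zero.mpr hN0
  refine ⟨ClassGroup.mk0 ⟨𝔄, h𝔄'⟩, ?_⟩
  rw [hNm ⟨𝔄, h𝔄'⟩ hN]
  symm
  rw [ClassGroup.mk0_eq_mk0_iff]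
  exact ⟨α, β, hα, hβ, heq⟩


end Fermat.Agent.S14
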