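import Mathlib
import Fermat.Agent.S14.FirstIneq.Units

/-!
# S14 / first inequality, block (PSI): capitulation, abstract core

`K/F` cyclic with generator `τ`.  For a unit `ε` of `𝓞 K` of norm one, Hilbert 90 gives
`α ∈ 𝓞 K` nonzero with `ε * τ α = α`; the ideal `(α)` is Galois invariant, hence extended from an
ideal `a` of `𝓞 F` (unramified case), and the class of `a` capitulates in `K`.  The class of `a`
determines `ε` up to `θ(E_K)`, `θ η = η / τ η`.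

This file proves the statement from abstract inputs (Hilbert 90 in integral form, ambiguous
ideals are extended, description of the extension map on classes); `Capitulation.lean`
instantiates them.
-/

namespace Fermat.Agent.S14

open NumberField
open scoped Pointwise nonZeroDivisors

set_option linter.unusedSectionVars false

section Core

variable {F K : Type*} [Field F] [NumberField F] [Field K] [NumberField K] [Algebra F K]

theorem fi_cap_smul_algebraMap (σ : Gal(K/F)) (x : 𝓞 F) :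
    σ • (algebraMap (𝓞 F) (𝓞 K) x) = algebraMap (𝓞 F) (𝓞 K) x := by
  apply RingOfIntegers.ext
  change σ ((algebraMap (𝓞 F) (𝓞 K) x : 𝓞 K) : K) = _
  have : ((algebraMap (𝓞 F) (𝓞 K) x : 𝓞 K) : K) = algebraMap F K (x : F) := rfl
  rw [this, AlgEquiv.commutes]

theorem fi_cap_smul_span (σ : Gal(K/F)) (α : 𝓞 K) :
    σ • Ideal.span {α} = Ideal.span {σ • α} := by
  rw [Ideal.pointwise_smul_def, Ideal.map_span, Set.image_singleton]
  rfl

/-- If `ε * τ α = α` with `ε` a unit then `(α)` is `τ`-invariant. -/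
theorem fi_cap_smul_span_eq {τ : Gal(K/F)} {ε : (𝓞 K)ˣ} {α : 𝓞 K}
    (h : (ε : 𝓞 K) * τ • α = α) : τ • Ideal.span {α} = Ideal.span {α} := by
  rw [fi_cap_smul_span, Ideal.span_singleton_eq_span_singleton]
  exact ⟨ε, by rw [mul_comm]; exact h⟩

/-- Invariance under a generator implies invariance under the whole group. -/
theorem fi_cap_smul_eq_of_generator {τ : Gal(K/F)} (hτ : ∀ σ : Gal(K/F), σ ∈ Subgroup.zpowers τ)
    {A : Ideal (𝓞 K)} (h : τ • A = A) (σ : Gal(K/F)) : σ • A = A := by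
  have h1 : τ ∈ MulAction.stabilizer Gal(K/F) A := MulAction.mem_stabilizer_iff.mpr h
  have h2 : Subgroup.zpowers τ ≤ MulAction.stabilizer Gal(K/F) A :=
    (Subgroup.zpowers_le).mpr h1
  exact MulAction.mem_stabilizer_iff.mp (h2 (hτ σ))

/-- **Capitulation, abstract core.** -/
theorem fi_cap_core (τ : Gal(K/F)) (hτ : ∀ σ : Gal(K/F), σ ∈ Subgroup.zpowers τ)
    (ν : (𝓞 K)ˣ →* (𝓞 F)ˣ) (j : ClassGroup (𝓞 F) →* ClassGroup (𝓞 K))
    (hj : ∀ (a : (Ideal (𝓞 F))⁰)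
      (ha : (a : Ideal (𝓞 F)).map (algebraMap (𝓞 F) (𝓞 K)) ∈ (Ideal (𝓞 K))⁰),
      j (ClassGroup.mk0 a) =
        ClassGroup.mk0 ⟨(a : Ideal (𝓞 F)).map (algebraMap (𝓞 F) (𝓞 K)), ha⟩)
    (h90 : ∀ ε : (𝓞 K)ˣ, ν ε = 1 → ∃ α : 𝓞 K, α ≠ 0 ∧ (ε : 𝓞 K) * τ • α = α)
    (hamb : ∀ A : Ideal (𝓞 K), A ≠ ⊥ → (∀ σ : Gal(K/F), σ • A = A) →
      ∃ a : Ideal (𝓞 F), a ≠ ⊥ ∧ A = a.map (algebraMap (𝓞 F) (𝓞 K))) :
    ∃ ψ : ν.ker → j.ker, ∀ a b : ν.ker, ψ a = ψ b →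
      ((a : (𝓞 K)ˣ))⁻¹ * (b : (𝓞 K)ˣ) ∈ (fi_theta τ).range := by
  classical
  -- the data attached to a norm-one unit
  have key : ∀ ε : ν.ker, ∃ (α : 𝓞 K) (a : (Ideal (𝓞 F))⁰), α ≠ 0 ∧
      ((ε : (𝓞 K)ˣ) : 𝓞 K) * τ • α = α ∧
      (a : Ideal (𝓞 F)).map (algebraMap (𝓞 F) (𝓞 K)) = Ideal.span {α} ∧
      j (ClassGroup.mk0 a) = 1 := by
    intro ε
    obtain ⟨α, hα0, hα⟩ := h90 ε (MonoidHom.mem_ker.mp ε.2)
    have hspan0 : Ideal.span {α} ≠ (⊥ : Ideal (𝓞 K)) := by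
      rw [Ne, Ideal.span_singleton_eq_bot]; exact hα0
    obtain ⟨a, ha0, ha⟩ := hamb (Ideal.span {α}) hspan0
      (fi_cap_smul_eq_of_generator hτ (fi_cap_smul_span_eq hα))
    have hmem : a.map (algebraMap (𝓞 F) (𝓞 K)) ∈ (Ideal (𝓞 K))⁰ := by
      rw [← ha]; exact mem_nonZeroDivisors_of_ne_zero hspan0
    refine ⟨α, ⟨a, mem_nonZeroDivisors_of_ne_zero ha0⟩, hα0, hα, ha.symm, ?_⟩
    rw [hj ⟨a, mem_nonZeroDivisors_of_ne_zero ha0⟩ hmem, ClassGroup.mk0_eq_one_iff hmem]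
    rw [← ha]
    exact ⟨⟨α, rfl⟩⟩
  choose α a hα0 hα ha hja using key
  refine ⟨fun ε => ⟨ClassGroup.mk0 (a ε), MonoidHom.mem_ker.mpr (hja ε)⟩, ?_⟩
  intro ε ε' h
  have hcl : ClassGroup.mk0 (a ε) = ClassGroup.mk0 (a ε') := congrArg Subtype.val h
  rw [ClassGroup.mk0_eq_mk0_iff] at hcl
  obtain ⟨x, y, hx, hy, hxy⟩ := hcl
  -- push the relation up to `K`
  have hmap := congrArg (Ideal.map (algebraMap (𝓞 F) (𝓞 K))) hxy
  rw [Ideal.map_mul, Ideal.map_mul, Ideal.map_span, Ideal.map_span, Set.image_singleton,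
    Set.image_singleton, ha ε, ha ε', Ideal.span_singleton_mul_span_singleton,
    Ideal.span_singleton_mul_span_singleton, Ideal.span_singleton_eq_span_singleton] at hmap
  obtain ⟨η, hη⟩ := hmap
  set x' : 𝓞 K := algebraMap (𝓞 F) (𝓞 K) x with hx'
  set y' : 𝓞 K := algebraMap (𝓞 F) (𝓞 K) y with hy'
  have hx'0 : x' ≠ 0 := by
    rw [hx', Ne, FaithfulSMul.algebraMap_eq_zero_iff]; exact hx
  have hτα0 : τ • α ε ≠ 0 := by
    intro h0
    apply hα0 ε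
    rw [← hα ε, h0, mul_zero]
  -- the key identity `ε' * τ η = ε * η`
  have hmain : ((ε' : (𝓞 K)ˣ) : 𝓞 K) * τ • (η : 𝓞 K) = ((ε : (𝓞 K)ˣ) : 𝓞 K) * (η : 𝓞 K) := by
    apply mul_right_cancel₀ (mul_ne_zero hx'0 hτα0)
    calc ((ε' : (𝓞 K)ˣ) : 𝓞 K) * τ • (η : 𝓞 K) * (x' * τ • α ε)
        = ((ε' : (𝓞 K)ˣ) : 𝓞 K) * τ • (x' * α ε * (η : 𝓞 K)) := by
          rw [smul_mul', smul_mul', hx', fi_cap_smul_algebraMap]; ring
      _ = ((ε' : (𝓞 K)ˣ) : 𝓞 K) * τ • (y' * α ε') := by rw [hη]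
      _ = y' * (((ε' : (𝓞 K)ˣ) : 𝓞 K) * τ • α ε') := by
          rw [smul_mul', hy', fi_cap_smul_algebraMap]; ring
      _ = y' * α ε' := by rw [hα ε']
      _ = x' * α ε * (η : 𝓞 K) := hη.symm
      _ = x' * (((ε : (𝓞 K)ˣ) : 𝓞 K) * τ • α ε) * (η : 𝓞 K) := by rw [hα ε]
      _ = ((ε : (𝓞 K)ˣ) : 𝓞 K) * (η : 𝓞 K) * (x' * τ • α ε) := by ring
  refine ⟨η, ?_⟩
  have hunits : (ε' : (𝓞 K)ˣ) * fi_unitAut τ η = (ε : (𝓞 K)ˣ) * η := by
    apply Units.ext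
    rw [Units.val_mul, Units.val_mul, fi_unitAut_coe]
    exact hmain
  rw [fi_theta_apply, div_eq_iff_eq_mul, mul_assoc, eq_inv_mul_iff_mul_eq]
  rw [mul_comm] at hunits
  rw [← hunits]
  exact mul_comm _ _

end Core

end Fermat.Agent.S14
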