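import Mathlib
import Fermat.Agent.S14.FirstIneq.CapitulationCore
import Fermat.Agent.S14.FirstIneq.UnitsBridge
import Fermat.Agent.S14.FirstIneq.ClassAction
import Fermat.Agent.S14.FirstIneq.AmbigIdeal

/-!
# S14 / first inequality, block (PSI): capitulation

`fi_cap_exists`: for `K/F` cyclic unramified with generator `σ` there is a map
`ψ : ker (N : E_K → E_F) → ker (Cl_F → Cl_K)` whose fibres are contained in cosets of
`θ(E_K)`, `θ η = η / σ η`.  Hence `[E_K[N = 1] : θ E_K] ≤ |ker (Cl_F → Cl_K)|`.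
-/

namespace Fermat.Agent.S14

open NumberField
open scoped Pointwise nonZeroDivisors

set_option linter.unusedSectionVars false
set_option linter.unusedVariables false

variable {F K : Type*} [Field F] [NumberField F] [Field K] [NumberField K] [Algebra F K]
  [IsGalois F K]

/-- Hilbert 90 for units of norm one, integral form: `ε * σ α = α` for some nonzero `α`. -/
theorem fi_cap_hilbert90_unit (σ : Gal(K/F)) (hσ : ∀ g : Gal(K/F), g ∈ Subgroup.zpowers σ)
    (ε : (𝓞 K)ˣ) (hε : fi_unitNorm F K ε = 1) :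
    ∃ α : 𝓞 K, α ≠ 0 ∧ (ε : 𝓞 K) * σ • α = α := by
  have hnorm : Algebra.norm F (((ε : 𝓞 K) : K)) = Algebra.norm F (((1 : 𝓞 K) : 𝓞 K) : K) := by
    rw [(fi_mem_ker_unitNorm_iff ε).mp (MonoidHom.mem_ker.mpr hε)]
    simp
  obtain ⟨b, hb0, hb⟩ := fi_hilbert90_int σ hσ (y := (ε : 𝓞 K)) (z := 1) one_ne_zero hnorm
  exact ⟨b, hb0, by rw [hb, one_mul]⟩

/-- **Capitulation** (block (PSI) of the first inequality). -/
theorem fi_cap_exists (p : ℕ) [Fact p.Prime] (σ : Gal(K/F))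
    (hσ : ∀ g : Gal(K/F), g ∈ Subgroup.zpowers σ) (hdeg : Module.finrank F K = p)
    (hur : ∀ P : Ideal (𝓞 K), P.IsPrime → P ≠ ⊥ → P.inertia Gal(K/F) = ⊥) :
    ∃ ψ : (fi_unitNorm F K).ker → (fi_clExt (F := F) (K := K)).ker,
      ∀ a b, ψ a = ψ b → ((a : (𝓞 K)ˣ))⁻¹ * (b : (𝓞 K)ˣ) ∈ (fi_theta σ).range :=
  fi_cap_core σ hσ (fi_unitNorm F K) (fi_clExt (F := F) (K := K))
    (fun a ha => fi_clExt_mk0' a ha)
    (fun ε hε => fi_cap_hilbert90_unit σ hσ ε hε)
    (fun A hA0 hA => fi_ai_exists_map_eq hur A hA0 hA)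

end Fermat.Agent.S14
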