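import Mathlib
import Fermat.Agent.S14.FirstIneq.Assembly
import Fermat.Agent.S14.FirstIneq.UnitsBridge
import Fermat.Agent.S14.FirstIneq.ClassAction
import Fermat.Agent.S14.FirstIneq.Capitulation
import Fermat.Agent.S14.FirstIneq.AmbigClass
import Fermat.Agent.S14.FirstIneq.AmbigClassOne

/-!
# S14 / first inequality: the main theorem

For a cyclic extension `K/F` of number fields of odd prime degree `p`, unramified at all
finite primes, the norm map `Cl_K → Cl_F` is not surjective: `p * |N(Cl_K)| ≤ |Cl_F|`, hence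
there is a nonzero ideal `𝔟` of `𝓞 F` which is not, up to principal ideals, the relative norm
of an ideal of `𝓞 K`.

Inputs: Herbrand quotient of units (`fi_units_herbrand'`), capitulation (`fi_cap_exists`),
ambiguous classes (`fi_amb_exists_of_L1`, `fi_ac_mk0_mem_range`), and the counting argument
`fi_asm_main`.
-/

open NumberField
open scoped nonZeroDivisors Pointwise

namespace Fermat.Agent.S14

variable {F K : Type*} [Field F] [NumberField F] [Field K] [NumberField K] [Algebra F K]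
  [IsGalois F K]

/-- **(PHI)**: the unit attached to an ambiguous class separates the cosets of the extended
classes. -/
theorem fi_amb_exists (σ : Gal(K/F)) (hσ : ∀ g : Gal(K/F), g ∈ Subgroup.zpowers σ)
    (hur : ∀ P : Ideal (𝓞 K), P.IsPrime → P ≠ ⊥ → P.inertia Gal(K/F) = ⊥) :
    ∃ φ : {c : ClassGroup (𝓞 K) // fi_clAct σ c = c} → (𝓞 F)ˣ ⧸ (fi_unitNorm F K).range,
      ∀ a b, φ a = φ b →
        (a : ClassGroup (𝓞 K))⁻¹ * (b : ClassGroup (𝓞 K)) ∈
          (fi_clExt (F := F) (K := K)).range :=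
  fi_amb_exists_of_L1 σ hσ (fi_ac_mk0_mem_range σ hσ hur)

/-- **Counting form of the first inequality**: `p * |N(Cl_K)| ≤ |Cl_F|`. -/
theorem fi_card_range_clNorm (p : ℕ) [hp : Fact p.Prime] (hp2 : p ≠ 2) (σ : Gal(K/F))
    (hσ : ∀ g : Gal(K/F), g ∈ Subgroup.zpowers σ) (hdeg : Module.finrank F K = p)
    (hur : ∀ P : Ideal (𝓞 K), P.IsPrime → P ≠ ⊥ → P.inertia Gal(K/F) = ⊥) :
    p * Nat.card (fi_clNorm (F := F) (K := K)).range ≤ Nat.card (ClassGroup (𝓞 F)) := by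
  obtain ⟨ψ, hψ⟩ := fi_cap_exists p σ hσ hdeg hur
  obtain ⟨φ, hφ⟩ := fi_amb_exists σ hσ hur
  exact fi_asm_main p (fi_clExt (F := F) (K := K)) (fi_clNorm (F := F) (K := K))
    (fi_clAct σ) (fi_clNorm_clAct σ) (fi_unitNorm F K) (fi_theta σ)
    (fi_units_herbrand' p hp2 σ hσ hdeg) ψ hψ φ hφ

/-- **The first inequality** (weak form): some nonzero ideal of `𝓞 F` is not a norm from `K`
up to principal ideals. -/
theorem fi_first_inequality (p : ℕ) [hp : Fact p.Prime] (hp2 : p ≠ 2) (σ : Gal(K/F))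
    (hσ : ∀ g : Gal(K/F), g ∈ Subgroup.zpowers σ) (hdeg : Module.finrank F K = p)
    (hur : ∀ P : Ideal (𝓞 K), P.IsPrime → P ≠ ⊥ → P.inertia Gal(K/F) = ⊥) :
    ∃ 𝔟 : Ideal (𝓞 F), 𝔟 ≠ ⊥ ∧ ∀ (α β : 𝓞 F) (𝔄 : Ideal (𝓞 K)), α ≠ 0 → β ≠ 0 → 𝔄 ≠ ⊥ →
      Ideal.span {α} * 𝔟 ≠ Ideal.span {β} * Ideal.relNorm (𝓞 F) 𝔄 :=
  fi_asm_first_inequality_of_range_ne_top (fi_clNorm (F := F) (K := K))
    (fun A hA => fi_clNorm_mk0' A hA)
    (fi_asm_range_ne_top p hp.out.two_le _ (fi_card_range_clNorm p hp2 σ hσ hdeg hur))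

/-- Variant without a chosen generator: `Gal(K/F)` of prime order is cyclic. -/
theorem fi_first_inequality' (p : ℕ) [hp : Fact p.Prime] (hp2 : p ≠ 2)
    (hdeg : Module.finrank F K = p)
    (hur : ∀ P : Ideal (𝓞 K), P.IsPrime → P ≠ ⊥ → P.inertia Gal(K/F) = ⊥) :
    ∃ 𝔟 : Ideal (𝓞 F), 𝔟 ≠ ⊥ ∧ ∀ (α β : 𝓞 F) (𝔄 : Ideal (𝓞 K)), α ≠ 0 → β ≠ 0 → 𝔄 ≠ ⊥ →
      Ideal.span {α} * 𝔟 ≠ Ideal.span {β} * Ideal.relNorm (𝓞 F) 𝔄 := by
  have hcard : Nat.card Gal(K/F) = p := by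
    rw [IsGalois.card_aut_eq_finrank, hdeg]
  have : IsCyclic Gal(K/F) := isCyclic_of_prime_card hcard
  obtain ⟨σ, hσ⟩ := IsCyclic.exists_generator (α := Gal(K/F))
  exact fi_first_inequality p hp2 σ hσ hdeg hur

end Fermat.Agent.S14
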