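import Mathlib
import Fermat.Agent.S14.FirstIneq.UnitsBridge
import Fermat.Agent.S14.FirstIneq.ClassAction
import Fermat.Agent.S14.FirstIneq.AmbigIdeal

/-!
# S14 / first inequality, block (PHI), step (L2): the norm ratio of an ambiguous class

`K/F` cyclic with generator `σ`.  If `(x) σA = (y) A` for a nonzero ideal `A` of `𝓞 K`, then
taking the product over the Galois group gives `(N x) = (N y)` as ideals of `𝓞 F`, so
`N y = u N x` for a unit `u` of `𝓞 F`.
-/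

namespace Fermat.Agent.S14

open NumberField
open scoped Pointwise nonZeroDivisors

set_option linter.unusedSectionVars false

variable {F K : Type*} [Field F] [NumberField F] [Field K] [NumberField K] [Algebra F K]
  [IsGalois F K]

theorem fi_ac2_pow_finrank (σ : Gal(K/F)) : σ ^ Module.finrank F K = 1 := by
  rw [← IsGalois.card_aut_eq_finrank]
  exact pow_card_eq_one'

/-- Shifting the index in the product of the conjugates of an ideal. -/
theorem fi_ac2_prod_shift (σ : Gal(K/F)) {A : Ideal (𝓞 K)} (hA : A ≠ ⊥) :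
    ∏ i ∈ Finset.range (Module.finrank F K), (σ ^ (i + 1)) • A =
      ∏ i ∈ Finset.range (Module.finrank F K), (σ ^ i) • A := by
  have h1 := Finset.prod_range_succ' (fun i => (σ ^ i) • A) (Module.finrank F K)
  have h2 := Finset.prod_range_succ (fun i => (σ ^ i) • A) (Module.finrank F K)
  rw [h1] at h2
  simp only [fi_ac2_pow_finrank, pow_zero] at h2
  exact mul_right_cancel₀ (by rwa [one_smul]) h2

theorem fi_ac2_prod_ne_bot (σ : Gal(K/F)) {A : Ideal (𝓞 K)} (hA : A ≠ ⊥) :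
    ∏ i ∈ Finset.range (Module.finrank F K), (σ ^ i) • A ≠ 0 := by
  rw [Finset.prod_ne_zero_iff]
  intro i _
  exact fi_smul_ne_bot (σ ^ i) hA

/-- If `(x) σA = (y) A` then `(N x) = (N y)` in `𝓞 F`. -/
theorem fi_ac2_span_intNorm_eq (σ : Gal(K/F)) (hσ : ∀ g : Gal(K/F), g ∈ Subgroup.zpowers σ)
    {A : Ideal (𝓞 K)} (hA : A ≠ ⊥) {x y : 𝓞 K}
    (hxy : Ideal.span {x} * σ • A = Ideal.span {y} * A) :
    Ideal.span {Algebra.intNorm (𝓞 F) (𝓞 K) x} = Ideal.span {Algebra.intNorm (𝓞 F) (𝓞 K) y} := by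
  -- conjugate the relation by `σ ^ i`
  have hi : ∀ i : ℕ, Ideal.span {(σ ^ i) • x} * (σ ^ (i + 1)) • A =
      Ideal.span {(σ ^ i) • y} * (σ ^ i) • A := by
    intro i
    have := congrArg (fun B => (σ ^ i) • B) hxy
    simp only [smul_mul', fi_smul_span_singleton, smul_smul] at this
    rwa [← pow_succ] at this
  -- take the product
  have hprod : (∏ i ∈ Finset.range (Module.finrank F K), Ideal.span {(σ ^ i) • x}) *
      ∏ i ∈ Finset.range (Module.finrank F K), (σ ^ (i + 1)) • A =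
      (∏ i ∈ Finset.range (Module.finrank F K), Ideal.span {(σ ^ i) • y}) *
      ∏ i ∈ Finset.range (Module.finrank F K), (σ ^ i) • A := by
    rw [← Finset.prod_mul_distrib, ← Finset.prod_mul_distrib]
    exact Finset.prod_congr rfl fun i _ => hi i
  rw [fi_ac2_prod_shift σ hA, Ideal.prod_span_singleton, Ideal.prod_span_singleton,
    fi_prod_smul_eq_intNorm σ hσ, fi_prod_smul_eq_intNorm σ hσ] at hprod
  have hcancel := mul_right_cancel₀ (fi_ac2_prod_ne_bot σ hA) hprod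
  apply fi_ai_map_injective (K := K)
  rw [Ideal.map_span, Ideal.map_span, Set.image_singleton, Set.image_singleton]
  exact hcancel

/-- **(L2), integral form.** If `(x) σA = (y) A` then `N y = u N x` for a unit `u` of `𝓞 F`. -/
theorem fi_ac2_exists_unit (σ : Gal(K/F)) (hσ : ∀ g : Gal(K/F), g ∈ Subgroup.zpowers σ)
    {A : Ideal (𝓞 K)} (hA : A ≠ ⊥) {x y : 𝓞 K}
    (hxy : Ideal.span {x} * σ • A = Ideal.span {y} * A) :
    ∃ u : (𝓞 F)ˣ, Algebra.intNorm (𝓞 F) (𝓞 K) y = (u : 𝓞 F) * Algebra.intNorm (𝓞 F) (𝓞 K) x := by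
  obtain ⟨u, hu⟩ := Ideal.span_singleton_eq_span_singleton.mp
    (fi_ac2_span_intNorm_eq σ hσ hA hxy)
  exact ⟨u, by rw [← hu, mul_comm]⟩

/-- **(L2), field form.** If `(x) σA = (y) A` then `N_{K/F} y = u N_{K/F} x` for a unit `u`
of `𝓞 F`. -/
theorem fi_ac2_exists_unit_norm (σ : Gal(K/F)) (hσ : ∀ g : Gal(K/F), g ∈ Subgroup.zpowers σ)
    {A : Ideal (𝓞 K)} (hA : A ≠ ⊥) {x y : 𝓞 K}
    (hxy : Ideal.span {x} * σ • A = Ideal.span {y} * A) :
    ∃ u : (𝓞 F)ˣ, Algebra.norm F (y : K) =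
      algebraMap (𝓞 F) F (u : 𝓞 F) * Algebra.norm F (x : K) := by
  obtain ⟨u, hu⟩ := fi_ac2_exists_unit σ hσ hA hxy
  refine ⟨u, ?_⟩
  have h1 := Algebra.algebraMap_intNorm (A := 𝓞 F) (K := F) (L := K) (B := 𝓞 K) y
  have h2 := Algebra.algebraMap_intNorm (A := 𝓞 F) (K := F) (L := K) (B := 𝓞 K) x
  rw [hu, map_mul, h2] at h1
  exact h1.symm

/-- **(L2), class form.** A class fixed by `σ` has a representative `A` with `(x) σA = (y) A`
and `N y = u N x`, `u` a unit of `𝓞 F`. -/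
theorem fi_ac2_of_fixed (σ : Gal(K/F)) (hσ : ∀ g : Gal(K/F), g ∈ Subgroup.zpowers σ)
    (c : ClassGroup (𝓞 K)) (hc : fi_clAct σ c = c) :
    ∃ (A : (Ideal (𝓞 K))⁰) (x y : 𝓞 K) (u : (𝓞 F)ˣ), ClassGroup.mk0 A = c ∧ x ≠ 0 ∧ y ≠ 0 ∧
      Ideal.span {x} * σ • (A : Ideal (𝓞 K)) = Ideal.span {y} * (A : Ideal (𝓞 K)) ∧
      Algebra.norm F (y : K) = algebraMap (𝓞 F) F (u : 𝓞 F) * Algebra.norm F (x : K) := by
  obtain ⟨A, rfl⟩ := ClassGroup.mk0_surjective c
  obtain ⟨x, y, hx, hy, hxy⟩ := (fi_clAct_mk0_eq_iff σ A).mp hc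
  obtain ⟨u, hu⟩ := fi_ac2_exists_unit_norm σ hσ (mem_nonZeroDivisors_iff_ne_zero.mp A.2) hxy
  exact ⟨A, x, y, u, rfl, hx, hy, hxy, hu⟩

end Fermat.Agent.S14
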