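import Mathlib
import Fermat.Agent.S14.FirstIneq.Units

/-!
# S14 / first inequality block: separation lemmas for ambiguous classes

`K/F` Galois extension of number fields, `τ ∈ Gal(K/F)`.  Only integral ideals are used: an ideal
class `[A]` is `τ`-invariant iff `(x) τA = (y) A` for some nonzero `x y : 𝓞 K`.

* `fi_sep_exists_unit` (L2): then `N y = u N x` for a unit `u` of `𝓞 F`.
* `fi_sep_L3` (L3): if two invariant classes `[A]`, `[B]` have units `u_A`, `u_B` with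
  `u_A⁻¹ u_B` a norm of a unit of `𝓞 K`, then `[B] = [A] [c 𝓞 K]` for an ideal `c` of `𝓞 F`
  (given (L1): an ideal `C` with `(x) τC = (y) C` and `N y = N x N ε` is equivalent to an extended
  ideal).
* `fi_sep_L5` (L5): if `a 𝓞 K = (α)`, `τα = εα`, `a' 𝓞 K = (α')`, `τα' = ε'α'` and `a`, `a'` are
  in the same ideal class of `𝓞 F`, then `ε' = ε τη/η` for a unit `η`.
-/

set_option autoImplicit false

namespace Fermat.Agent.S14

open NumberField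
open scoped Pointwise nonZeroDivisors

section

set_option linter.unusedSectionVars false

variable {F K : Type*} [Field F] [NumberField F] [Field K] [NumberField K] [Algebra F K]
  [IsGalois F K]

lemma fi_sep_smul_span (τ : Gal(K/F)) (x : 𝓞 K) :
    τ • Ideal.span {x} = Ideal.span {τ • x} := by
  rw [Ideal.pointwise_smul_def, Ideal.map_span, Set.image_singleton]
  rfl

lemma fi_sep_smul_ne_bot (τ : Gal(K/F)) {A : Ideal (𝓞 K)} (hA : A ≠ ⊥) : τ • A ≠ ⊥ := by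
  intro h
  apply hA
  have h1 : τ⁻¹ • τ • A = τ⁻¹ • (⊥ : Ideal (𝓞 K)) := by rw [h]
  rw [inv_smul_smul] at h1
  rw [h1, Ideal.pointwise_smul_def, Ideal.map_bot]

lemma fi_sep_intNorm_smul (τ : Gal(K/F)) (x : 𝓞 K) :
    Algebra.intNorm (𝓞 F) (𝓞 K) (τ • x) = Algebra.intNorm (𝓞 F) (𝓞 K) x :=
  Algebra.intNorm_map_algEquiv (𝓞 K) x (MulSemiringAction.toAlgEquiv (𝓞 F) (𝓞 K) τ)

lemma fi_sep_coe_intNorm (x : 𝓞 K) :
    algebraMap (𝓞 F) F (Algebra.intNorm (𝓞 F) (𝓞 K) x) = Algebra.norm F (x : K) :=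
  Algebra.algebraMap_intNorm (A := 𝓞 F) (K := F) (L := K) (B := 𝓞 K) x

/-- **(L2)**: if `(x) τA = (y) A` then `N y = u N x` for a unit `u` of `𝓞 F`. -/
theorem fi_sep_exists_unit (τ : Gal(K/F)) {A : Ideal (𝓞 K)} (hA : A ≠ ⊥) {x y : 𝓞 K}
    (h : Ideal.span {x} * τ • A = Ideal.span {y} * A) :
    ∃ u : (𝓞 F)ˣ, Algebra.intNorm (𝓞 F) (𝓞 K) y = u * Algebra.intNorm (𝓞 F) (𝓞 K) x := by
  have h1 := congrArg (Ideal.relNorm (𝓞 F)) h
  rw [map_mul, map_mul, Ideal.relNorm_smul, Ideal.relNorm_singleton, Ideal.relNorm_singleton]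
    at h1
  have hN : Ideal.relNorm (𝓞 F) A ≠ ⊥ := by rwa [Ne, Ideal.relNorm_eq_bot_iff]
  have h2 := mul_right_cancel₀ hN h1
  rw [Ideal.span_singleton_eq_span_singleton] at h2
  obtain ⟨u, hu⟩ := h2
  exact ⟨u, by rw [← hu, mul_comm]⟩

/-- (L2), with norms taken in the fields. -/
theorem fi_sep_exists_unit' (τ : Gal(K/F)) {A : Ideal (𝓞 K)} (hA : A ≠ ⊥) {x y : 𝓞 K}
    (h : Ideal.span {x} * τ • A = Ideal.span {y} * A) :
    ∃ u : (𝓞 F)ˣ, Algebra.norm F (y : K) = algebraMap (𝓞 F) F u * Algebra.norm F (x : K) := by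
  obtain ⟨u, hu⟩ := fi_sep_exists_unit τ hA h
  refine ⟨u, ?_⟩
  rw [← fi_sep_coe_intNorm, ← fi_sep_coe_intNorm, hu, map_mul]

/-- (L2) for an invariant ideal class, given as `mk0 (τ • A) = mk0 A`. -/
theorem fi_sep_L2 (τ : Gal(K/F)) (A : (Ideal (𝓞 K))⁰) (hτA : τ • (A : Ideal (𝓞 K)) ∈ (Ideal (𝓞 K))⁰)
    (h : ClassGroup.mk0 ⟨τ • (A : Ideal (𝓞 K)), hτA⟩ = ClassGroup.mk0 A) :
    ∃ x y : 𝓞 K, x ≠ 0 ∧ y ≠ 0 ∧ Ideal.span {x} * τ • (A : Ideal (𝓞 K)) = Ideal.span {y} * A ∧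
      ∃ u : (𝓞 F)ˣ, Algebra.intNorm (𝓞 F) (𝓞 K) y = u * Algebra.intNorm (𝓞 F) (𝓞 K) x := by
  obtain ⟨x, y, hx, hy, hxy⟩ := ClassGroup.mk0_eq_mk0_iff.mp h
  exact ⟨x, y, hx, hy, hxy,
    fi_sep_exists_unit τ (mem_nonZeroDivisors_iff_ne_zero.mp A.2) hxy⟩

/-- The statement (L1), to be supplied by the ambiguous ideal block: an ideal `C` with
`(x) τC = (y) C` and `N y = N x N ε` for a unit `ε` is equivalent to an ideal extended from `F`. -/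
def fi_L1Hyp (τ : Gal(K/F)) : Prop :=
  ∀ (C : Ideal (𝓞 K)), C ≠ ⊥ → ∀ x y : 𝓞 K, x ≠ 0 → y ≠ 0 →
    Ideal.span {x} * τ • C = Ideal.span {y} * C → ∀ ε : (𝓞 K)ˣ,
    Algebra.norm F (y : K) = Algebra.norm F (x : K) * Algebra.norm F (((ε : 𝓞 K)) : K) →
    ∃ (a : Ideal (𝓞 F)) (γ δ : 𝓞 K), γ ≠ 0 ∧ δ ≠ 0 ∧
      Ideal.span {γ} * C = Ideal.span {δ} * a.map (algebraMap (𝓞 F) (𝓞 K))

/-- **(L3)** separation of invariant classes by the unit `u` modulo norms of units. -/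
theorem fi_sep_L3 (τ : Gal(K/F)) (hL1 : fi_L1Hyp τ)
    {A B : Ideal (𝓞 K)} (hA : A ≠ ⊥) (hB : B ≠ ⊥) {xA yA xB yB : 𝓞 K}
    (hxA : xA ≠ 0) (hyA : yA ≠ 0) (hxB : xB ≠ 0) (hyB : yB ≠ 0)
    (hAe : Ideal.span {xA} * τ • A = Ideal.span {yA} * A)
    (hBe : Ideal.span {xB} * τ • B = Ideal.span {yB} * B)
    {uA uB : (𝓞 F)ˣ}
    (huA : Algebra.intNorm (𝓞 F) (𝓞 K) yA = uA * Algebra.intNorm (𝓞 F) (𝓞 K) xA)
    (huB : Algebra.intNorm (𝓞 F) (𝓞 K) yB = uB * Algebra.intNorm (𝓞 F) (𝓞 K) xB)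
    (ε : (𝓞 K)ˣ)
    (hε : ((uA⁻¹ * uB : (𝓞 F)ˣ) : 𝓞 F) = Algebra.intNorm (𝓞 F) (𝓞 K) (ε : 𝓞 K)) :
    ∃ (c : Ideal (𝓞 F)) (γ δ : 𝓞 K), c ≠ ⊥ ∧ γ ≠ 0 ∧ δ ≠ 0 ∧
      Ideal.span {γ} * B = Ideal.span {δ} * (A * c.map (algebraMap (𝓞 F) (𝓞 K))) := by
  obtain ⟨d, hdA, hd0⟩ := Submodule.exists_mem_ne_zero_of_ne_bot hA
  obtain ⟨A', hA'⟩ := Ideal.dvd_span_singleton.mpr hdA
  have hA'0 : A' ≠ ⊥ := by
    rintro rfl
    rw [Ideal.mul_bot, Ideal.span_singleton_eq_bot] at hA'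
    exact hd0 hA'
  have hτd0 : τ • d ≠ 0 := (smul_ne_zero_iff_ne τ).mpr hd0
  have hτA0 : τ • A ≠ ⊥ := fi_sep_smul_ne_bot τ hA
  have hτd : Ideal.span {τ • d} = τ • A * τ • A' := by
    rw [← fi_sep_smul_span, hA', smul_mul']
  -- the pair for `A'`
  have hK1 : Ideal.span {yA * d} * τ • A' = Ideal.span {xA * τ • d} * A' := by
    have hc : A * τ • A ≠ ⊥ := mul_ne_zero hA hτA0
    refine mul_right_cancel₀ hc ?_
    calc Ideal.span {yA * d} * τ • A' * (A * τ • A)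
        = (Ideal.span {yA} * A) * Ideal.span {d} * (τ • A * τ • A') := by
          rw [← Ideal.span_singleton_mul_span_singleton]; ring
      _ = (Ideal.span {xA} * τ • A) * (A * A') * Ideal.span {τ • d} := by
          rw [← hAe, ← hτd, ← hA']
      _ = Ideal.span {xA * τ • d} * A' * (A * τ • A) := by
          rw [← Ideal.span_singleton_mul_span_singleton]; ring
  -- the pair for `C = A' * B`
  have hC0 : A' * B ≠ ⊥ := mul_ne_zero hA'0 hB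
  have hK2 : Ideal.span {yA * d * xB} * τ • (A' * B) =
      Ideal.span {xA * τ • d * yB} * (A' * B) := by
    rw [smul_mul', ← Ideal.span_singleton_mul_span_singleton,
      ← Ideal.span_singleton_mul_span_singleton (xA * τ • d)]
    calc Ideal.span {yA * d} * Ideal.span {xB} * (τ • A' * τ • B)
        = (Ideal.span {yA * d} * τ • A') * (Ideal.span {xB} * τ • B) := by ring
      _ = (Ideal.span {xA * τ • d} * A') * (Ideal.span {yB} * B) := by rw [hK1, hBe]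
      _ = Ideal.span {xA * τ • d} * Ideal.span {yB} * (A' * B) := by ring
  have hnorm : Algebra.norm F ((xA * τ • d * yB : 𝓞 K) : K) =
      Algebra.norm F ((yA * d * xB : 𝓞 K) : K) * Algebra.norm F (((ε : 𝓞 K)) : K) := by
    rw [← fi_sep_coe_intNorm, ← fi_sep_coe_intNorm, ← fi_sep_coe_intNorm, ← map_mul]
    congr 1
    rw [map_mul, map_mul, map_mul, map_mul, fi_sep_intNorm_smul, huA, huB, ← hε, Units.val_mul]
    have h1 : (uA : 𝓞 F) * ((uA⁻¹ : (𝓞 F)ˣ) : 𝓞 F) = 1 := Units.mul_inv uA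
    linear_combination (-(Algebra.intNorm (𝓞 F) (𝓞 K) xA * Algebra.intNorm (𝓞 F) (𝓞 K) d *
      Algebra.intNorm (𝓞 F) (𝓞 K) xB * (uB : 𝓞 F))) * h1
  obtain ⟨a, γ, δ, hγ, hδ, hγδ⟩ := hL1 (A' * B) hC0 (yA * d * xB) (xA * τ • d * yB)
    (mul_ne_zero (mul_ne_zero hyA hd0) hxB) (mul_ne_zero (mul_ne_zero hxA hτd0) hyB) hK2 ε hnorm
  refine ⟨a, γ * d, δ, ?_, mul_ne_zero hγ hd0, hδ, ?_⟩
  · rintro rfl
    rw [Ideal.map_bot, Ideal.mul_bot] at hγδ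
    have : Ideal.span {γ} ≠ ⊥ := by rwa [Ne, Ideal.span_singleton_eq_bot]
    exact mul_ne_zero this hC0 hγδ
  · calc Ideal.span {γ * d} * B = A * (Ideal.span {γ} * (A' * B)) := by
          rw [← Ideal.span_singleton_mul_span_singleton, hA']; ring
      _ = Ideal.span {δ} * (A * a.map (algebraMap (𝓞 F) (𝓞 K))) := by rw [hγδ]; ring

/-- **(L5)**: the unit `ε` with `τα = εα`, `a 𝓞 K = (α)`, is determined by the class of `a` up to
`τη/η`. -/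
theorem fi_sep_L5 (τ : Gal(K/F)) {ε ε' : (𝓞 K)ˣ} {a a' : Ideal (𝓞 F)} {α α' : 𝓞 K}
    (hα : α ≠ 0)
    (ha : a.map (algebraMap (𝓞 F) (𝓞 K)) = Ideal.span {α})
    (ha' : a'.map (algebraMap (𝓞 F) (𝓞 K)) = Ideal.span {α'})
    (hε : τ • α = (ε : 𝓞 K) * α) (hε' : τ • α' = (ε' : 𝓞 K) * α')
    {f f' : 𝓞 F} (hf : f ≠ 0) (hff : Ideal.span {f} * a = Ideal.span {f'} * a') :
    ∃ η : (𝓞 K)ˣ, ε' = ε * (fi_unitAut τ η / η) := by
  have h1 := congrArg (Ideal.map (algebraMap (𝓞 F) (𝓞 K))) hff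
  rw [Ideal.map_mul, Ideal.map_mul, Ideal.map_span, Ideal.map_span, Set.image_singleton,
    Set.image_singleton, ha, ha', Ideal.span_singleton_mul_span_singleton,
    Ideal.span_singleton_mul_span_singleton, Ideal.span_singleton_eq_span_singleton] at h1
  obtain ⟨η, hη⟩ := h1
  refine ⟨η, ?_⟩
  have hφf : algebraMap (𝓞 F) (𝓞 K) f ≠ 0 := by
    rw [Ne, FaithfulSMul.algebraMap_eq_zero_iff]
    exact hf
  have h2 := congrArg (τ • ·) hη
  simp only [smul_mul', smul_algebraMap, hε, hε'] at h2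
  have h3 : (ε : 𝓞 K) * τ • (η : 𝓞 K) = (ε' : 𝓞 K) * η := by
    have hc : algebraMap (𝓞 F) (𝓞 K) f * α ≠ 0 := mul_ne_zero hφf hα
    refine mul_left_cancel₀ hc ?_
    linear_combination h2 - (ε' : 𝓞 K) * hη
  have h4 : ε' * η = ε * fi_unitAut τ η := by
    ext
    rw [Units.val_mul, Units.val_mul, fi_unitAut_coe, h3]
  rw [← mul_div_assoc, eq_div_iff_mul_eq', h4]

/-- (L5), `θ`-form: `ε⁻¹ ε'` lies in the range of `θ = (u ↦ u / τu)`. -/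
theorem fi_sep_L5_theta (τ : Gal(K/F)) {ε ε' : (𝓞 K)ˣ} {a a' : Ideal (𝓞 F)} {α α' : 𝓞 K}
    (hα : α ≠ 0)
    (ha : a.map (algebraMap (𝓞 F) (𝓞 K)) = Ideal.span {α})
    (ha' : a'.map (algebraMap (𝓞 F) (𝓞 K)) = Ideal.span {α'})
    (hε : τ • α = (ε : 𝓞 K) * α) (hε' : τ • α' = (ε' : 𝓞 K) * α')
    {f f' : 𝓞 F} (hf : f ≠ 0) (hff : Ideal.span {f} * a = Ideal.span {f'} * a') :
    ε⁻¹ * ε' ∈ (fi_theta τ).range := by
  obtain ⟨η, hη⟩ := fi_sep_L5 τ hα ha ha' hε hε' hf hff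
  refine ⟨η⁻¹, ?_⟩
  rw [hη, fi_theta_apply, map_inv, inv_mul_cancel_left, div_inv_eq_mul, div_eq_mul_inv, mul_comm]

end

end Fermat.Agent.S14
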